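/-
MLT / [L2-JL] / P3 (G-mid) (helper3), part 9: **applying (B3) to one residue map**: a homomorphism
`r : U → 𝔽̄_q(X₀(K))ˣ` and `y ∈ U` such that `div (r y)` is divisible by `p`, `r y` is not a `p`-th
power, and for every good `ℓ` there is `y'` with `T̃_ℓ (r y) = const · r y'` and
`r y' = const · (r y) ^ a_ℓ · (r g') ^ p` — then `MltL2AbCmpAt` gives residual modularity.
-/
import Fermat.Agent.Lib.MLT.L2.AbDefs

set_option autoImplicit false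
set_option linter.unusedSectionVars false
set_option linter.unusedVariables false
set_option linter.style.haveILetI false
set_option synthInstance.maxHeartbeats 400000

open WeierstrassCurve

namespace Fermat.Agent.MLT

open ModularCurve HahnSeries Fermat.Agent.T1 Fermat.Agent.T2 Fermat.Agent.T4 Fermat.Agent.TW
  Fermat.Agent.Delta Fermat.Agent.T3 Fermat.Agent.Alpha AlgebraicCurve Fermat.Agent.Curve

local notation "Qb" => AlgebraicClosure ℚ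

noncomputable section

variable (𝔓 : FFPlace) (K : ℕ) [NeZero K] (p : ℕ)

/-- the coefficient embedding of a constant of `𝔽̄_q(X₀(K))` -/
theorem mltj3_coe_const (b : IsLocalRing.ResidueField ↥𝔓.P) :
    ((algebraMap (IsLocalRing.ResidueField ↥𝔓.P) ↥(tbBarF 𝔓 K) b : ↥(tbBarF 𝔓 K)) :
      LaurentSeries (IsLocalRing.ResidueField ↥𝔓.P)) = HahnSeries.C b := by
  rw [← ta_algebraMap_eq_C]
  rfl

set_option maxHeartbeats 1600000 in
/-- **(B3) applied to one residue map** -/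
theorem mltj3_apply_cmp {U : Type*} [Group U] (r : U →* (↥(tbBarF 𝔓 K))ˣ) (y : U)
    (W : WeierstrassCurve ℤ) (hCmp : MltL2AbCmpAt 𝔓 K p W)
    (hdiv : ∀ s : Place (IsLocalRing.ResidueField ↥𝔓.P) ↥(tbBarF 𝔓 K),
      (p : ℤ) ∣ s.ord ((r y : (↥(tbBarF 𝔓 K))ˣ) : ↥(tbBarF 𝔓 K)))
    (hkey : ∀ (ℓ : ℕ) [NeZero ℓ], ℓ.Prime → ¬ ℓ ∣ K * 𝔓.p → W.IsGoodPrimeFor ℓ → ℓ ≠ p →
      ∃ (y' g' : U) (b : (IsLocalRing.ResidueField ↥𝔓.P)ˣ),
        r y' = Units.map (algebraMap (IsLocalRing.ResidueField ↥𝔓.P) ↥(tbBarF 𝔓 K) :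
          IsLocalRing.ResidueField ↥𝔓.P →* ↥(tbBarF 𝔓 K)) b *
            (r y ^ (W.apOfModel ℓ) * r g' ^ p) ∧
        ∀ (ζ' : (↥𝔓.P)ˣ)
          (hζK : IsPrimitiveRoot ((Units.map (𝔓.P.subtype : ↥𝔓.P →* Qb) ζ' : Qbˣ) : Qb) ℓ)
          (hζk : IsPrimitiveRoot ((Units.map ((IsLocalRing.residue ↥𝔓.P : ↥𝔓.P →+*
            IsLocalRing.ResidueField ↥𝔓.P) : ↥𝔓.P →* IsLocalRing.ResidueField ↥𝔓.P) ζ' :
            (IsLocalRing.ResidueField ↥𝔓.P)ˣ) : IsLocalRing.ResidueField ↥𝔓.P) ℓ),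
          ∃ c : IsLocalRing.ResidueField ↥𝔓.P, c ≠ 0 ∧
            tkrTilde ℓ hζk (((r y : (↥(tbBarF 𝔓 K))ˣ) : ↥(tbBarF 𝔓 K)) :
                LaurentSeries (IsLocalRing.ResidueField ↥𝔓.P)) =
              HahnSeries.C c * (((r y' : (↥(tbBarF 𝔓 K))ˣ) : ↥(tbBarF 𝔓 K)) :
                LaurentSeries (IsLocalRing.ResidueField ↥𝔓.P)))
    (hnp : ¬ ∃ t : (↥(tbBarF 𝔓 K))ˣ, r y = t ^ p) :
    W.IsResiduallyModularOfLevel p (K * 𝔓.p) := by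
  refine hCmp (r y) hdiv ?_ hnp
  intro ℓ _ hℓ hℓK hgood hℓp ζ' hζK hζk
  obtain ⟨y', g', b, hr, hT⟩ := hkey ℓ hℓ hℓK hgood hℓp
  obtain ⟨c, hc0, hTc⟩ := hT ζ' hζK hζk
  refine ⟨c * (b : IsLocalRing.ResidueField ↥𝔓.P), r g', mul_ne_zero hc0 b.ne_zero, ?_⟩
  rw [hTc, hr, Units.val_mul, Units.coe_map, MulMemClass.coe_mul]
  show HahnSeries.C c * (((algebraMap (IsLocalRing.ResidueField ↥𝔓.P) ↥(tbBarF 𝔓 K)
      (b : IsLocalRing.ResidueField ↥𝔓.P) : ↥(tbBarF 𝔓 K)) :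
        LaurentSeries (IsLocalRing.ResidueField ↥𝔓.P)) * _) = _
  rw [mltj3_coe_const, ← mul_assoc, ← map_mul (HahnSeries.C : IsLocalRing.ResidueField ↥𝔓.P →+*
    LaurentSeries (IsLocalRing.ResidueField ↥𝔓.P)) c (b : IsLocalRing.ResidueField ↥𝔓.P)]

end

end Fermat.Agent.MLT
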