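/-
MLT / [L2-JL] / P3 (G-mid) (helper3), part 6: **the abstract half of the assembly of the abelian
part** (interface `T4nA`/`T4nB` only, no modular curves).

* `mltj3_normalise` : a unit `u ∈ D.U` of the shape `c · g ^ m` is `c₁ · g' ^ m` with `c₁` a unit of
  the constant field and `g' ∈ D.U`;
* `mltj3_res_of_eq` : if `y' · y ^ (-a) = c · g ^ m` with `y, y' ∈ D.U` then the three residues
  satisfy `r_*(y') = κ b · (r_*(y) ^ a · r_*(g') ^ m)`.
-/
import Mathlib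
import Fermat.Agent.Lib.T4.New.ABDefs

set_option autoImplicit false
set_option linter.unusedSectionVars false
set_option linter.unusedVariables false
set_option linter.style.haveILetI false

open Fermat.Agent.T4

namespace Fermat.Agent.MLT

variable {L F1 F : Type} [Field L] [Field F1] [Field F] {q m : ℕ} (D : T4nA L F1 F q m)

/-- constants which are units of the constant field are units at the three valuations -/
theorem mltj3_cF_mem_U {c : Lˣ} (hc : c ∈ D.UL) : D.cF c ∈ D.U := by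
  have hc' : D.vL (Additive.ofMul c) = 0 := hc
  refine ⟨?_, ?_, ?_⟩
  · show D.vinf (Additive.ofMul (D.cF c)) = 0
    rw [D.vinf_c, hc']
  · show D.vmid (Additive.ofMul (D.cF c)) = 0
    rw [D.vmid_c, hc', mul_zero]
  · show D.v0 (Additive.ofMul (D.cF c)) = 0
    rw [D.v0_c, hc']

/-- **normalisation**: a unit at the three valuations of the shape `c · g ^ m` is `c₁ · g' ^ m` with
`c₁` a unit of the constant field and `g'` a unit at the three valuations -/
theorem mltj3_normalise (hm : m ≠ 0) {u : Fˣ} (hu : u ∈ D.U) (c : Lˣ) (g : Fˣ)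
    (h : u = D.cF c * g ^ m) :
    ∃ (c₁ : Lˣ) (g' : Fˣ), c₁ ∈ D.UL ∧ g' ∈ D.U ∧ u = D.cF c₁ * g' ^ m := by
  have hm' : (m : ℤ) ≠ 0 := by exact_mod_cast hm
  obtain ⟨h1, h2, h3⟩ := hu
  set n : ℤ := D.vinf (Additive.ofMul g) with hn
  -- the three valuations of `u`
  have e1 : D.vL (Additive.ofMul c) + (m : ℤ) * n = 0 := by
    have := h1
    rw [h, ofMul_mul, map_add, D.vinf_c, ofMul_pow, map_nsmul, nsmul_eq_mul] at this
    exact this
  have e2 : ((q : ℤ) - 1) * D.vL (Additive.ofMul c) + (m : ℤ) * D.vmid (Additive.ofMul g) = 0 := by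
    have := h2
    rw [h, ofMul_mul, map_add, D.vmid_c, ofMul_pow, map_nsmul, nsmul_eq_mul] at this
    exact this
  have e3 : D.vL (Additive.ofMul c) + (m : ℤ) * D.v0 (Additive.ofMul g) = 0 := by
    have := h3
    rw [h, ofMul_mul, map_add, D.v0_c, ofMul_pow, map_nsmul, nsmul_eq_mul] at this
    exact this
  have hvL : D.vL (Additive.ofMul c) = -((m : ℤ) * n) := by linarith
  have hmid : D.vmid (Additive.ofMul g) = ((q : ℤ) - 1) * n := by
    have : (m : ℤ) * (D.vmid (Additive.ofMul g) - ((q : ℤ) - 1) * n) = 0 := by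
      rw [hvL] at e2
      linarith
    rcases mul_eq_zero.mp this with h0 | h0
    · exact absurd h0 hm'
    · linarith
  have h0' : D.v0 (Additive.ofMul g) = n := by
    have : (m : ℤ) * (D.v0 (Additive.ofMul g) - n) = 0 := by
      rw [hvL] at e3
      linarith
    rcases mul_eq_zero.mp this with h0 | h0
    · exact absurd h0 hm'
    · linarith
  have hπinf : D.vinf (Additive.ofMul (D.cF D.π)) = 1 := by rw [D.vinf_c, D.vL_π]
  have hπmid : D.vmid (Additive.ofMul (D.cF D.π)) = (q : ℤ) - 1 := by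
    rw [D.vmid_c, D.vL_π, mul_one]
  have hπ0 : D.v0 (Additive.ofMul (D.cF D.π)) = 1 := by rw [D.v0_c, D.vL_π]
  refine ⟨c * D.π ^ ((m : ℤ) * n), g * (D.cF D.π) ^ (-n), ?_, ⟨?_, ?_, ?_⟩, ?_⟩
  · show D.vL (Additive.ofMul (c * D.π ^ ((m : ℤ) * n))) = 0
    rw [ofMul_mul, map_add, ofMul_zpow, map_zsmul, D.vL_π, hvL, smul_eq_mul, mul_one]
    ring
  · show D.vinf (Additive.ofMul (g * (D.cF D.π) ^ (-n))) = 0
    rw [ofMul_mul, map_add, ofMul_zpow, map_zsmul, hπinf, ← hn, smul_eq_mul, mul_one]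
    ring
  · show D.vmid (Additive.ofMul (g * (D.cF D.π) ^ (-n))) = 0
    rw [ofMul_mul, map_add, ofMul_zpow, map_zsmul, hπmid, hmid, smul_eq_mul]
    ring
  · show D.v0 (Additive.ofMul (g * (D.cF D.π) ^ (-n))) = 0
    rw [ofMul_mul, map_add, ofMul_zpow, map_zsmul, hπ0, h0', smul_eq_mul, mul_one]
    ring
  · rw [h, map_mul, map_zpow, mul_pow, ← zpow_natCast ((D.cF D.π) ^ (-n)) m, ← zpow_mul,
      mul_mul_mul_comm, ← zpow_add, neg_mul, mul_comm n (m : ℤ), add_neg_cancel, zpow_zero,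
      mul_one]

variable {k E1 E : Type} [Field k] [Field E1] [Field E] (B : T4nB D k E1 E)

/-- **the residues of a Hecke translate**: if `y' · y ^ (-a) = c · g ^ m` with `y, y' ∈ D.U`, then
`r_*(y') = κ b · (r_*(y) ^ a · r_*(g') ^ m)` for the three residue maps, the residues of the unit
constants being constants -/
theorem mltj3_res_of_eq (hm : m ≠ 0)
    (hconst : ∀ (c : Lˣ) (hc : D.cF c ∈ D.U), c ∈ D.UL →
      ∃ b : kˣ, B.rinf ⟨D.cF c, hc⟩ = B.κ b ∧ B.rmid ⟨D.cF c, hc⟩ = B.κ b ∧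
        B.r0 ⟨D.cF c, hc⟩ = B.κ b)
    (y y' : ↥D.U) (a : ℤ) (c : Lˣ) (g : Fˣ)
    (h : (y' : Fˣ) * (y : Fˣ) ^ (-a) = D.cF c * g ^ m) :
    ∃ (b : kˣ) (g' : ↥D.U),
      B.rinf y' = B.κ b * (B.rinf y ^ a * B.rinf g' ^ m) ∧
      B.rmid y' = B.κ b * (B.rmid y ^ a * B.rmid g' ^ m) ∧
      B.r0 y' = B.κ b * (B.r0 y ^ a * B.r0 g' ^ m) := by
  have hu : (y' : Fˣ) * (y : Fˣ) ^ (-a) ∈ D.U := D.U.mul_mem y'.2 (D.U.zpow_mem y.2 _)
  obtain ⟨c₁, g', hc₁, hg', hcg⟩ := mltj3_normalise D hm hu c g h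
  have hcU := mltj3_cF_mem_U D hc₁
  obtain ⟨b, hb1, hb2, hb3⟩ := hconst c₁ hcU hc₁
  have key : y' = (⟨D.cF c₁, hcU⟩ : ↥D.U) * (⟨g', hg'⟩ : ↥D.U) ^ m * y ^ a := by
    apply Subtype.ext
    rw [Subgroup.coe_mul, Subgroup.coe_mul, Subgroup.coe_pow, Subgroup.coe_zpow]
    show (y' : Fˣ) = D.cF c₁ * g' ^ m * (y : Fˣ) ^ a
    rw [← hcg, mul_assoc, ← zpow_add, neg_add_cancel, zpow_zero, mul_one]
  refine ⟨b, ⟨g', hg'⟩, ?_, ?_, ?_⟩
  · conv_lhs => rw [key]
    rw [map_mul, map_mul, map_pow, map_zpow, hb1]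
    rw [mul_assoc, mul_comm (B.rinf ⟨g', hg'⟩ ^ m)]
  · conv_lhs => rw [key]
    rw [map_mul, map_mul, map_pow, map_zpow, hb2]
    rw [mul_assoc, mul_comm (B.rmid ⟨g', hg'⟩ ^ m)]
  · conv_lhs => rw [key]
    rw [map_mul, map_mul, map_pow, map_zpow, hb3]
    rw [mul_assoc, mul_comm (B.r0 ⟨g', hg'⟩ ^ m)]

end Fermat.Agent.MLT
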