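/-
MLT / [L2-JL] / P3 (G-mid) (helper3), part 8: **the residues of the unit constants** for the instance
`t4niBU` of the three-valuation base: `r_*(c) = κ (π c)` for the three residue maps
(`mltj3_hconst`), and the resulting formula for the residues of a Hecke translate
(`mltj3_res_inst`).
-/
import Fermat.Agent.Lib.MLT.L2.P3.AsmAbs
import Fermat.Agent.Lib.T4.Inst.ChartPt
import Fermat.Agent.Lib.T4.New.InstU

set_option autoImplicit false
set_option linter.unusedSectionVars false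
set_option linter.unusedVariables false
set_option linter.style.haveILetI false
set_option synthInstance.maxHeartbeats 400000

open HahnSeries ModularCurve AlgebraicCurve Fermat.Agent.T1 Fermat.Agent.T2 Fermat.Agent.T4
  IntermediateField

noncomputable section

namespace Fermat.Agent.MLT

section Inst

attribute [local instance] t2iAlgebra t2i_isScalarTower

variable {L : Type} [Field L] [Algebra ℚ L] (O : ValuationSubring L) {k : Type} [Field k]
  (π : ↥O →+* k) [IsDiscreteValuationRing ↥O] (hπ : Function.Surjective π) [IsAlgClosed k]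
  {N' q : ℕ} [NeZero N'] [hq : Fact q.Prime] [CharP k q] (hN' : (N' : k) ≠ 0)
  (W1 : T2iAL L N' q) (Fr : T2iFrob k N' q) (W : T4iAL L N' q)
  (hqO : Irreducible ((q : ℕ) : ↥O))
  {L' : Type*} [Field L'] [Algebra L L'] (O' : ValuationSubring L')
  [IsDiscreteValuationRing ↥O'] (π' : ↥O' →+* k) (C : T4iCyc O O' π π' q)
  (M : T4iMid L L' N' q C.ζ) (m : ℕ)

/-- the three residues of a constant of `O` -/
theorem mltj3_R_const (c : ↥O)
    (hc : algebraMap L ↥(TaF L (N' * q * q)) (c : L) ∈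
      (t4vInput O π hπ hN' W1 Fr W hqO O' π' C M).Ov) :
    t4vmR1 O π hπ hN' W1 Fr W hqO O' π' C M ⟨_, hc⟩ =
        algebraMap k ↥(modularFunctionFieldFullC k N') (π c) ∧
      t4vmR2 O π hπ hN' W1 Fr W hqO O' π' C M ⟨_, hc⟩ =
        algebraMap k ↥(modularFunctionFieldFullC k N') (π c) ∧
      t4vmR3 O π hπ hN' W1 Fr W hqO O' π' C M ⟨_, hc⟩ =
        algebraMap k ↥(modularFunctionFieldFullC k N') (π c) := by
  have e : (⟨_, hc⟩ : ↥(t4vInput O π hπ hN' W1 Fr W hqO O' π' C M).Ov) =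
      t4veA0 O π hπ hN' W1 Fr W hqO O' π' C M
        ⟨algebraMap L ↥(TaF L N') (c : L), algebraMap_mem_taOv O π hπ N' c⟩ :=
    Subtype.ext (t4vk_const_eq W1 W hqO O' π' C M c).symm
  refine ⟨?_, ?_, ?_⟩
  · rw [e, t4vm_R1_A0, t4vk_res_const]
  · rw [e, t4vm_R2_A0, t4vk_res_const]
  · rw [e, t4vm_R3_A0, t4vk_res_const, t4vmPhi2_algebraMap]

include hπ in
/-- **the residues of the unit constants are constants** (the hypothesis `hconst` of
`mltj3_res_of_eq` for the instance) -/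
theorem mltj3_hconst (hm : m ≠ 0) (hqm : Nat.Coprime m q) :
    ∀ (c : Lˣ) (hc : (t4niAU O π hπ hN' W1 Fr W hqO O' π' C M m).cF c ∈
        (t4niAU O π hπ hN' W1 Fr W hqO O' π' C M m).U),
      c ∈ (t4niAU O π hπ hN' W1 Fr W hqO O' π' C M m).UL →
      ∃ b : kˣ,
        (t4niBU O π hπ hN' W1 Fr W hqO O' π' C M m hm hqm).rinf ⟨_, hc⟩ =
          (t4niBU O π hπ hN' W1 Fr W hqO O' π' C M m hm hqm).κ b ∧
        (t4niBU O π hπ hN' W1 Fr W hqO O' π' C M m hm hqm).rmid ⟨_, hc⟩ =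
          (t4niBU O π hπ hN' W1 Fr W hqO O' π' C M m hm hqm).κ b ∧
        (t4niBU O π hπ hN' W1 Fr W hqO O' π' C M m hm hqm).r0 ⟨_, hc⟩ =
          (t4niBU O π hπ hN' W1 Fr W hqO O' π' C M m hm hqm).κ b := by
  intro c hc hcUL
  obtain ⟨hcO, hcO'⟩ := t4ni_mem_O_of_mem_UL O π hπ hN' W1 Fr W hqO O' π' C M m
    (t4ni_happrox O π hπ hN' W1 Fr W hqO O' π' C M) hcUL
  -- `π c` is a unit of `k`
  have hmul : π ⟨(c : L), hcO⟩ * π ⟨((c⁻¹ : Lˣ) : L), hcO'⟩ = 1 := by
    rw [← map_mul]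
    have : (⟨(c : L), hcO⟩ : ↥O) * ⟨((c⁻¹ : Lˣ) : L), hcO'⟩ = 1 :=
      Subtype.ext (by
        show (c : L) * ((c⁻¹ : Lˣ) : L) = 1
        rw [← Units.val_mul, mul_inv_cancel, Units.val_one])
    rw [this, map_one]
  have hπ0 : π ⟨(c : L), hcO⟩ ≠ 0 := left_ne_zero_of_mul_eq_one hmul
  have hOv := (t4ni_mem_Ov_of_mem_U O π hπ hN' W1 Fr W hqO O' π' C M m
    (t4ni_happrox O π hπ hN' W1 Fr W hqO O' π' C M) hc).1
  obtain ⟨h1, h2, h3⟩ := mltj3_R_const O π hπ hN' W1 Fr W hqO O' π' C M ⟨(c : L), hcO⟩ hOv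
  exact ⟨Units.mk0 _ hπ0, Units.ext h1, Units.ext h2, Units.ext h3⟩

include hπ in
/-- **the residues of a Hecke translate** for the instance -/
theorem mltj3_res_inst (hm : m ≠ 0) (hqm : Nat.Coprime m q)
    (y y' : ↥(t4niAU O π hπ hN' W1 Fr W hqO O' π' C M m).U) (a : ℤ) (c : Lˣ)
    (g : (↥(TaF L (N' * q * q)))ˣ)
    (h : (y' : (↥(TaF L (N' * q * q)))ˣ) * (y : (↥(TaF L (N' * q * q)))ˣ) ^ (-a) =
      Units.map (algebraMap L ↥(TaF L (N' * q * q)) : L →* ↥(TaF L (N' * q * q))) c * g ^ m) :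
    ∃ (b : kˣ) (g' : ↥(t4niAU O π hπ hN' W1 Fr W hqO O' π' C M m).U),
      (t4niBU O π hπ hN' W1 Fr W hqO O' π' C M m hm hqm).rinf y' =
        Units.map (algebraMap k ↥(modularFunctionFieldFullC k N') :
          k →* ↥(modularFunctionFieldFullC k N')) b *
          ((t4niBU O π hπ hN' W1 Fr W hqO O' π' C M m hm hqm).rinf y ^ a *
            (t4niBU O π hπ hN' W1 Fr W hqO O' π' C M m hm hqm).rinf g' ^ m) ∧
      (t4niBU O π hπ hN' W1 Fr W hqO O' π' C M m hm hqm).rmid y' =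
        Units.map (algebraMap k ↥(modularFunctionFieldFullC k N') :
          k →* ↥(modularFunctionFieldFullC k N')) b *
          ((t4niBU O π hπ hN' W1 Fr W hqO O' π' C M m hm hqm).rmid y ^ a *
            (t4niBU O π hπ hN' W1 Fr W hqO O' π' C M m hm hqm).rmid g' ^ m) ∧
      (t4niBU O π hπ hN' W1 Fr W hqO O' π' C M m hm hqm).r0 y' =
        Units.map (algebraMap k ↥(modularFunctionFieldFullC k N') :
          k →* ↥(modularFunctionFieldFullC k N')) b *
          ((t4niBU O π hπ hN' W1 Fr W hqO O' π' C M m hm hqm).r0 y ^ a *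
            (t4niBU O π hπ hN' W1 Fr W hqO O' π' C M m hm hqm).r0 g' ^ m) :=
  mltj3_res_of_eq (t4niAU O π hπ hN' W1 Fr W hqO O' π' C M m)
    (t4niBU O π hπ hN' W1 Fr W hqO O' π' C M m hm hqm) hm
    (mltj3_hconst O π hπ hN' W1 Fr W hqO O' π' C M m hm hqm) y y' a c g h

end Inst

end Fermat.Agent.MLT
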