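/-
MLT / [L2-JL] / P3 (G-mid) (helper3), part 10: **the assembly of the abelian part**

  `mltj3_abAt : MltL2AbDivAt → MltL2AbHeckeAt → MltL2AbCmpAt 𝔓 K p W → MltL2AbAt 𝔓 K hK hζ p hp0 hpq W`.

For a Kummer function `y ∈ D.U` over the inertia field whose class lies in the `W`-eigenspace and a good
prime `ℓ`: `y' := T_ℓ^fun y ∈ D.U` (Hecke), `[Φ y'] = T_ℓ [Φ y] = a_ℓ [Φ y]`, so
`Φ (y' y^(-a_ℓ)) = t^p` over `ℚ̄` (`mltj3_eigen_fun`), `y' y^(-a_ℓ) = c g^p` over the inertia field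
(`mltj3_eigen_descend`), `c`, `g` units at the three valuations after normalisation
(`mltj3_normalise`), hence `T̃_ℓ (r_* y) = const · r_*(y') = const · (r_* y)^(a_ℓ) (r_* g')^p`
(`mltj3_res_inst`); (B3) = `MltL2AbCmpAt` applied to a residue which is not a `p`-th power
(`mltj3_apply_cmp`), its divisor being divisible by `p` by `MltL2AbDivAt`.
-/
import Fermat.Agent.Lib.MLT.L2.AbDefs
import Fermat.Agent.Lib.MLT.L2.P3.AsmCls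
import Fermat.Agent.Lib.MLT.L2.P3.AsmRes
import Fermat.Agent.Lib.MLT.L2.P3.AsmCmp

set_option autoImplicit false
set_option linter.unusedSectionVars false
set_option linter.unusedVariables false
set_option linter.style.haveILetI false
set_option synthInstance.maxHeartbeats 400000

open WeierstrassCurve

namespace Fermat.Agent.MLT

open ModularCurve HahnSeries Fermat.Agent.T1 Fermat.Agent.T2 Fermat.Agent.T4 Fermat.Agent.TW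
  Fermat.Agent.Delta Fermat.Agent.T3 Fermat.Agent.Alpha AlgebraicCurve Fermat.Agent.Curve
  Fermat.Agent.S05Lib

local notation "Qb" => AlgebraicClosure ℚ

noncomputable section

attribute [local instance] t2i_dvr t2i_isAlgClosed t2i_charP t2i_fact t2iAlgebra t2i_isScalarTower

variable (𝔓 : FFPlace) (K : ℕ) [NeZero K] (hK : ¬ 𝔓.p ∣ K) {ζ : Qb}
  (hζ : IsPrimitiveRoot ζ 𝔓.p) (p : ℕ) (hp0 : p ≠ 0) (hpq : Nat.Coprime p 𝔓.p)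

set_option maxHeartbeats 1600000 in
/-- **the residues of the Hecke translate of an eigen-Kummer function** -/
theorem mltj3_hecke_res (hHecke : MltL2AbHeckeAt 𝔓 K hK hζ p hp0 hpq)
    (W : WeierstrassCurve ℤ) (y : ↥(t4niAFix 𝔓 K hK hζ p).U)
    (hy : ∀ P : Place Qb ↥(modularFunctionFieldBar (K * 𝔓.p * 𝔓.p)),
      (p : ℤ) ∣ P.ord ((mltl2PhiU 𝔓 (K * 𝔓.p * 𝔓.p) (y : (↥(tbLevF 𝔓 (K * 𝔓.p * 𝔓.p) ⊤))ˣ) :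
        (↥(modularFunctionFieldBar (K * 𝔓.p * 𝔓.p)))ˣ) :
          ↥(modularFunctionFieldBar (K * 𝔓.p * 𝔓.p))))
    (hyE : alpfClass hp0 (mltl2PhiU 𝔓 (K * 𝔓.p * 𝔓.p)
      (y : (↥(tbLevF 𝔓 (K * 𝔓.p * 𝔓.p) ⊤))ˣ)) hy ∈ dlwEig (K * 𝔓.p * 𝔓.p) p W)
    (ℓ : ℕ) [NeZero ℓ] (hℓ : ℓ.Prime) (hℓK : ¬ ℓ ∣ K * 𝔓.p) (hgood : W.IsGoodPrimeFor ℓ)
    (hℓp : ℓ ≠ p) :
    ∃ (y' g' : ↥(t4niAFix 𝔓 K hK hζ p).U) (b : (IsLocalRing.ResidueField ↥𝔓.P)ˣ),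
      ((t4niBFix 𝔓 K hK hζ p hp0 hpq).rinf y' =
        Units.map (algebraMap (IsLocalRing.ResidueField ↥𝔓.P) ↥(tbBarF 𝔓 K) :
          IsLocalRing.ResidueField ↥𝔓.P →* ↥(tbBarF 𝔓 K)) b *
            ((t4niBFix 𝔓 K hK hζ p hp0 hpq).rinf y ^ (W.apOfModel ℓ) *
              (t4niBFix 𝔓 K hK hζ p hp0 hpq).rinf g' ^ p) ∧
       (t4niBFix 𝔓 K hK hζ p hp0 hpq).rmid y' =
        Units.map (algebraMap (IsLocalRing.ResidueField ↥𝔓.P) ↥(tbBarF 𝔓 K) :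
          IsLocalRing.ResidueField ↥𝔓.P →* ↥(tbBarF 𝔓 K)) b *
            ((t4niBFix 𝔓 K hK hζ p hp0 hpq).rmid y ^ (W.apOfModel ℓ) *
              (t4niBFix 𝔓 K hK hζ p hp0 hpq).rmid g' ^ p) ∧
       (t4niBFix 𝔓 K hK hζ p hp0 hpq).r0 y' =
        Units.map (algebraMap (IsLocalRing.ResidueField ↥𝔓.P) ↥(tbBarF 𝔓 K) :
          IsLocalRing.ResidueField ↥𝔓.P →* ↥(tbBarF 𝔓 K)) b *
            ((t4niBFix 𝔓 K hK hζ p hp0 hpq).r0 y ^ (W.apOfModel ℓ) *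
              (t4niBFix 𝔓 K hK hζ p hp0 hpq).r0 g' ^ p)) ∧
      ∀ (ζ' : (↥𝔓.P)ˣ)
        (hζK : IsPrimitiveRoot ((Units.map (𝔓.P.subtype : ↥𝔓.P →* Qb) ζ' : Qbˣ) : Qb) ℓ)
        (hζk : IsPrimitiveRoot ((Units.map ((IsLocalRing.residue ↥𝔓.P : ↥𝔓.P →+*
          IsLocalRing.ResidueField ↥𝔓.P) : ↥𝔓.P →* IsLocalRing.ResidueField ↥𝔓.P) ζ' :
          (IsLocalRing.ResidueField ↥𝔓.P)ˣ) : IsLocalRing.ResidueField ↥𝔓.P) ℓ),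
        (∃ c : IsLocalRing.ResidueField ↥𝔓.P, c ≠ 0 ∧
          tkrTilde ℓ hζk ((((t4niBFix 𝔓 K hK hζ p hp0 hpq).rinf y : (↥(tbBarF 𝔓 K))ˣ) :
              ↥(tbBarF 𝔓 K)) : LaurentSeries (IsLocalRing.ResidueField ↥𝔓.P)) =
            HahnSeries.C c * ((((t4niBFix 𝔓 K hK hζ p hp0 hpq).rinf y' : (↥(tbBarF 𝔓 K))ˣ) :
              ↥(tbBarF 𝔓 K)) : LaurentSeries (IsLocalRing.ResidueField ↥𝔓.P))) ∧
        (∃ c : IsLocalRing.ResidueField ↥𝔓.P, c ≠ 0 ∧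
          tkrTilde ℓ hζk ((((t4niBFix 𝔓 K hK hζ p hp0 hpq).rmid y : (↥(tbBarF 𝔓 K))ˣ) :
              ↥(tbBarF 𝔓 K)) : LaurentSeries (IsLocalRing.ResidueField ↥𝔓.P)) =
            HahnSeries.C c * ((((t4niBFix 𝔓 K hK hζ p hp0 hpq).rmid y' : (↥(tbBarF 𝔓 K))ˣ) :
              ↥(tbBarF 𝔓 K)) : LaurentSeries (IsLocalRing.ResidueField ↥𝔓.P))) ∧
        (∃ c : IsLocalRing.ResidueField ↥𝔓.P, c ≠ 0 ∧
          tkrTilde ℓ hζk ((((t4niBFix 𝔓 K hK hζ p hp0 hpq).r0 y : (↥(tbBarF 𝔓 K))ˣ) :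
              ↥(tbBarF 𝔓 K)) : LaurentSeries (IsLocalRing.ResidueField ↥𝔓.P)) =
            HahnSeries.C c * ((((t4niBFix 𝔓 K hK hζ p hp0 hpq).r0 y' : (↥(tbBarF 𝔓 K))ˣ) :
              ↥(tbBarF 𝔓 K)) : LaurentSeries (IsLocalRing.ResidueField ↥𝔓.P))) := by
  letI := t4cyAlgebra 𝔓 (le_top : t4cyH 𝔓 ζ ≤ ⊤)
  have hℓN : ¬ ℓ ∣ K * 𝔓.p * 𝔓.p := by
    intro hd
    rcases (Nat.Prime.dvd_mul hℓ).mp hd with h1 | h1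
    · exact hℓK h1
    · exact hℓK (Dvd.dvd.mul_left h1 K)
  have H1 := hHecke ℓ hℓ hℓN y
  obtain ⟨y', hΦ, hT⟩ := H1
  have heig := (mem_dlwEig.mp hyE).2 ℓ hℓ hℓN hgood hℓp
  have H2 := mltj3_eigen_fun (K * 𝔓.p * 𝔓.p) hℓ hℓN hp0 _ hy (W.apOfModel ℓ) heig
  obtain ⟨t, ht⟩ := H2
  rw [← hΦ] at ht
  have H3 := mltj3_eigen_descend 𝔓 (K * 𝔓.p * 𝔓.p) hp0
    (y : (↥(tbLevF 𝔓 (K * 𝔓.p * 𝔓.p) ⊤))ˣ) (y' : (↥(tbLevF 𝔓 (K * 𝔓.p * 𝔓.p) ⊤))ˣ)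
    (W.apOfModel ℓ) t ht
  obtain ⟨c, g, hcg⟩ := H3
  have H4 := mltj3_res_inst (tbFixO 𝔓 ⊤) (tbFixRes 𝔓 ⊤)
    (tbFixRes_surjective 𝔓 ⊤) (t2i_natCast_ne_zero 𝔓 hK) (t2iALFix 𝔓 ⊤ K hK) (t2iFrobFix 𝔓 K)
    (t4iALFix 𝔓 ⊤ K hK) (t4cy_irreducible_p 𝔓) (tbFixO 𝔓 (t4cyH 𝔓 ζ)) (tbFixRes 𝔓 (t4cyH 𝔓 ζ))
    (t4iCycFix 𝔓 hζ) (t4vMidFix 𝔓 K hK hζ) p hp0 hpq y y' (W.apOfModel ℓ) c g hcg
  obtain ⟨b, g', h1, h2, h3⟩ := H4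
  exact ⟨y', g', b, ⟨h1, h2, h3⟩, hT⟩

set_option maxHeartbeats 1600000 in
/-- **[L2-Ab] the assembly of the abelian part**: divisibility (a), Hecke (b) and (B3) = (c) give the
abelian part at `(𝔓, K, p, W)` -/
theorem mltj3_abAt (W : WeierstrassCurve ℤ) (hDiv : MltL2AbDivAt 𝔓 K hK hζ p hp0 hpq)
    (hHecke : MltL2AbHeckeAt 𝔓 K hK hζ p hp0 hpq) (hCmp : MltL2AbCmpAt 𝔓 K p W) :
    MltL2AbAt 𝔓 K hK hζ p hp0 hpq W := by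
  intro y hy hyE hnt
  have hyW : (y : (↥(tbLevF 𝔓 (K * 𝔓.p * 𝔓.p) ⊤))ˣ) ∈ t4nWbar 𝔓 (K * 𝔓.p * 𝔓.p) p := hy
  have hdiv := hDiv y hyW
  have hkey := mltj3_hecke_res 𝔓 K hK hζ p hp0 hpq hHecke W y hy hyE
  by_cases h1 : ∃ t : (↥(tbBarF 𝔓 K))ˣ, (t4niBFix 𝔓 K hK hζ p hp0 hpq).rinf y = t ^ p
  · by_cases h2 : ∃ t : (↥(tbBarF 𝔓 K))ˣ, (t4niBFix 𝔓 K hK hζ p hp0 hpq).rmid y = t ^ p
    · have h3 : ¬ ∃ t : (↥(tbBarF 𝔓 K))ˣ, (t4niBFix 𝔓 K hK hζ p hp0 hpq).r0 y = t ^ p :=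
        fun h3 => hnt ⟨h1, h2, h3⟩
      refine mltj3_apply_cmp 𝔓 K p (t4niBFix 𝔓 K hK hζ p hp0 hpq).r0 y W hCmp
        (fun s => (hdiv s).2.2) ?_ h3
      intro ℓ _ hℓ hℓK hg hℓp
      have H := hkey ℓ hℓ hℓK hg hℓp
      obtain ⟨y', g', b, ⟨e1, e2, e3⟩, hT⟩ := H
      exact ⟨y', g', b, e3, fun ζ' hζK hζk => (hT ζ' hζK hζk).2.2⟩
    · refine mltj3_apply_cmp 𝔓 K p (t4niBFix 𝔓 K hK hζ p hp0 hpq).rmid y W hCmp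
        (fun s => (hdiv s).2.1) ?_ h2
      intro ℓ _ hℓ hℓK hg hℓp
      have H := hkey ℓ hℓ hℓK hg hℓp
      obtain ⟨y', g', b, ⟨e1, e2, e3⟩, hT⟩ := H
      exact ⟨y', g', b, e2, fun ζ' hζK hζk => (hT ζ' hζK hζk).2.1⟩
  · refine mltj3_apply_cmp 𝔓 K p (t4niBFix 𝔓 K hK hζ p hp0 hpq).rinf y W hCmp
      (fun s => (hdiv s).1) ?_ h1
    intro ℓ _ hℓ hℓK hg hℓp
    have H := hkey ℓ hℓ hℓK hg hℓp
    obtain ⟨y', g', b, ⟨e1, e2, e3⟩, hT⟩ := H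
    exact ⟨y', g', b, e1, fun ζ' hζK hζk => (hT ζ' hζK hζk).1⟩

end

end Fermat.Agent.MLT
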