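/-
MLT / [L2-JL] / P3 (G-mid) (helper3), part 1: **(B3) at a rigid level** = `MltL2AbCmpAt`.

`K` rigid (`4 ∣ K ∨ 9 ∣ K`), `q = 𝔓.p ∤ K`, `p` ANY prime (`p = 3`, `p ∣ K` allowed), `W` any model:

* `mltj3_red_kill`  : a polynomial `h` in the `T_ℓ` which kills the torsion of `J₀(K)(ℚ̄)` is killed by
  the reduction map at the level `K` itself (`ihbc_kill_of_finite` + helper6's finiteness of the
  Frobenius-fixed classes `ihbq_fixed_finite_modular`; no pull-back, no involution);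
* `mltj3_cmp`       : **`MltL2AbCmpAt 𝔓 K p W`**.

Proof of `mltj3_cmp`.  `x̄ := [div ȳ / p] ∈ Pic⁰(F̄_K)[p]` is an eigenclass of the `T̃_ℓ`, `ℓ ∈ S`
(`S` = good primes `ℓ ∤ K q`, `ℓ ≠ p`) (`ihbc_cmp_eigen`).  If `W` is not residually modular of
level `K q`, no non-zero point of `J₀(K)[p]` is an eigenvector of the `T_ℓ`, `ℓ ∈ S` (pull back to
the level `K q`: `dlwPullDvd_hecke`, `dlwPullDvd_eq_zero`, `dlw_D0`), so there is a killer `h`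
(`ihbc_exists_killer`) with `θ(h) ≢ 0 (p)`.  Lift `x̄ = R x` (`ihbc_red_surjective`);
`0 = R (h x) = h̃ x̄ = θ(h) x̄`, so `x̄ = 0`: `ȳ = c g ^ p` is a `p`-th power (`k` algebraically closed).
-/
import Mathlib
import Fermat.Agent.Lib.MLT.L2.AbDefs
import Fermat.Agent.Lib.Ihara.B.Cmp.Main
import Fermat.Agent.Lib.Ihara.B.Cmp.FinInst
import Fermat.Agent.Lib.Delta.Wire.D0

set_option autoImplicit false
set_option linter.unusedSectionVars false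
set_option linter.unusedVariables false
set_option linter.style.haveILetI false
set_option synthInstance.maxHeartbeats 400000

namespace Fermat.Agent.MLT

open ModularCurve Fermat.Agent.T1 Fermat.Agent.T3 Fermat.Agent.Delta AlgebraicCurve
  Fermat.Agent.Curve Fermat.Agent.TW Fermat.Agent.Alpha Fermat.Agent.Mazur HahnSeries
  Fermat.Agent.Ihara

local notation "Qb" => AlgebraicClosure ℚ
local notation "GQ" => (AlgebraicClosure ℚ ≃ₐ[ℚ] AlgebraicClosure ℚ)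

noncomputable section

attribute [local instance 5000] dlhAlgK

variable (𝔓 : FFPlace) (K : ℕ) [NeZero K]

/-- **a killer of the torsion of `J₀(K)(ℚ̄)` dies after reduction at the rigid level `K`** -/
theorem mltj3_red_kill (h49 : 4 ∣ K ∨ 9 ∣ K) (hK : ¬ 𝔓.p ∣ K) (S : Set Nat.Primes)
    (h : FreeAlgebra ℤ ↥S)
    (hkill : ∀ n : ℕ, n ≠ 0 → ∀ y : JZero K, n • y = 0 → ihbcRhoJ K S h y = 0)
    (z : JZero K) :
    t3bRed (t3aOK 𝔓 K hK) (t3a_good_modular 𝔓 K h49 hK) (ihbcRhoJ K S h z) = 0 := by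
  obtain ⟨g, f, hf0, hgz, hbar⟩ := ihbc_exists_frob_pow_fixing K 𝔓 z
  haveI : Finite ↥(ihbcFixed 𝔓 K f) := (ihbq_fixed_finite_modular 𝔓 K hK f hf0).to_subtype
  exact ihbc_kill_of_finite (G := GQ) (J := JZero K)
    (fun m hm x => Fermat.Agent.Mazur.mzk_divisible K hm x)
    ((ihbcRhoJ K S h : Module.End ℤ (JZero K)).toAddMonoidHom)
    (fun σ x => ihbcRhoJ_galois K S h σ x)
    (fun n hn y hy => hkill n hn y hy)
    (t3bRed (t3aOK 𝔓 K hK) (t3a_good_modular 𝔓 K h49 hK))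
    (ihbcFixed 𝔓 K f) z (g : GQ) hgz
    (fun w hw => by
      show (t3bPhi 𝔓 K) ^ f • _ = _
      have h1 := t3bRed_decomp (t3aOK 𝔓 K hK) (t3a_good_modular 𝔓 K h49 hK) g w
      exact (congrArg (fun Ψ => Ψ • t3bRed (t3aOK 𝔓 K hK) (t3a_good_modular 𝔓 K h49 hK) w)
        (hbar K)).symm.trans (h1.symm.trans
          (congrArg (t3bRed (t3aOK 𝔓 K hK) (t3a_good_modular 𝔓 K h49 hK)) hw)))

/-- **(B3) at a rigid level**: `MltL2AbCmpAt 𝔓 K p W` for `K` rigid, `q ∤ K`, `p` any prime -/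
theorem mltj3_cmp (h49 : 4 ∣ K ∨ 9 ∣ K) (hK : ¬ 𝔓.p ∣ K) (p : ℕ) (hp : p.Prime)
    (W : WeierstrassCurve ℤ) : MltL2AbCmpAt 𝔓 K p W := by
  intro yb hyb hT hnp
  by_contra hRM
  haveI : IsAlgClosed (IsLocalRing.ResidueField ↥𝔓.P) := tb_isAlgClosed_residueField 𝔓.P
  haveI := ihbc_hasPrincipalDivisors 𝔓 K hK
  haveI := tbq_bar_isSeparable (𝔓 := 𝔓) (N := K) hK
  haveI : NeZero (K * 𝔓.p) := ⟨Nat.mul_ne_zero (NeZero.ne K) 𝔓.hp.ne_zero⟩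
  haveI : Fact p.Prime := ⟨hp⟩
  -- the index set
  obtain ⟨S, hSdef⟩ : ∃ S : Set Nat.Primes,
      S = {ℓ : Nat.Primes | ¬ (ℓ : ℕ) ∣ K * 𝔓.p ∧ W.IsGoodPrimeFor ℓ ∧ (ℓ : ℕ) ≠ p} := ⟨_, rfl⟩
  have hSmem : ∀ ℓ : Nat.Primes,
      ℓ ∈ S ↔ (¬ (ℓ : ℕ) ∣ K * 𝔓.p ∧ W.IsGoodPrimeFor ℓ ∧ (ℓ : ℕ) ≠ p) := by
    intro ℓ
    rw [hSdef]
    rfl
  have hSK : ∀ ℓ ∈ S, ¬ (ℓ : ℕ) ∣ K := fun ℓ hℓ hd =>
    ((hSmem ℓ).mp hℓ).1 (dvd_mul_of_dvd_left hd _)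
  have hSq : ∀ ℓ ∈ S, (ℓ : ℕ) ≠ 𝔓.p := by
    intro ℓ hℓ he
    apply ((hSmem ℓ).mp hℓ).1
    rw [he]
    exact dvd_mul_left _ _
  have hS : ∀ ℓ ∈ S, ¬ (ℓ : ℕ) ∣ K ∧ (ℓ : ℕ) ≠ 𝔓.p := fun ℓ hℓ => ⟨hSK ℓ hℓ, hSq ℓ hℓ⟩
  -- no eigenvector in `J₀(K)[p]`
  have h0 : ∀ x : JZero K, p • x = 0 →
      (∀ ℓ ∈ S, heckeOperatorBar K ℓ x = (fun ℓ : Nat.Primes => W.apOfModel ℓ) ℓ • x) →
      x = 0 := by
    intro x hpx hx
    by_contra hx0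
    apply hRM
    have hdvd : K ∣ K * 𝔓.p := Dvd.intro _ rfl
    refine dlw_D0 (M := K * 𝔓.p) (p := p) W (dlwPullDvd hdvd x) ?_ ?_ ?_
    · intro h0
      exact hx0 (dlwPullDvd_eq_zero hdvd hp.ne_zero x hpx h0)
    · rw [← map_nsmul, hpx, map_zero]
    · intro ℓ hℓ hℓK hgood hℓp
      rw [← dlwPullDvd_hecke hdvd hℓ hℓK x, hx ⟨ℓ, hℓ⟩ ((hSmem _).mpr ⟨hℓK, hgood, hℓp⟩),
        map_zsmul]
  obtain ⟨h, hθ, hkill⟩ := ihbc_exists_killer K S hSK p hp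
    (fun ℓ : Nat.Primes => W.apOfModel ℓ) h0
  -- the class of `ȳ` is an eigenvector
  have heig := ihbc_cmp_eigen 𝔓 K h49 hK S hS hp.ne_zero
    (fun ℓ : Nat.Primes => W.apOfModel ℓ) yb hyb (by
      intro ℓ _ hℓ hℓS ζ hζK hζk
      exact hT ℓ hℓ ((hSmem _).mp hℓS).1 ((hSmem _).mp hℓS).2.1 ((hSmem _).mp hℓS).2.2 ζ hζK hζk)
  have heig' := ihbc_free_eigen S (ihbcRhoBar 𝔓 K h49 hK S hS)
    (fun ℓ : Nat.Primes => W.apOfModel ℓ) (alpfClass hp.ne_zero yb hyb) heig h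
  have hpxb : (p : ℤ) • alpfClass hp.ne_zero yb hyb = 0 := ihbc_class_torsion hp.ne_zero yb hyb
  -- lift and kill
  obtain ⟨x, hx⟩ := ihbc_red_surjective 𝔓 K h49 hK (alpfClass hp.ne_zero yb hyb)
  have h1 := mltj3_red_kill 𝔓 K h49 hK S h hkill x
  have h2 := ihbc_red_rho 𝔓 K h49 hK S hS h x
  have h3 : ihbcThetaZ S (fun ℓ : Nat.Primes => W.apOfModel ℓ) h •
      alpfClass hp.ne_zero yb hyb = 0 := by
    rw [← heig', ← hx, ← h2]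
    exact h1
  have hθZ : ¬ (p : ℤ) ∣ ihbcThetaZ S (fun ℓ : Nat.Primes => W.apOfModel ℓ) h := by
    intro hd
    apply hθ
    rw [ihbcTheta_eq]
    exact (ZMod.intCast_zmod_eq_zero_iff_dvd _ p).mpr hd
  have hpZ : Prime (p : ℤ) := Nat.prime_iff_prime_int.mp hp
  have hcop : IsCoprime (p : ℤ) (ihbcThetaZ S (fun ℓ : Nat.Primes => W.apOfModel ℓ) h) :=
    (Prime.coprime_iff_not_dvd hpZ).mpr hθZ
  have hxb0 : alpfClass hp.ne_zero yb hyb = 0 := ihbc_eq_zero_of_coprime _ _ _ hcop hpxb h3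
  -- `ȳ` is a constant times a `p`-th power, hence a `p`-th power
  obtain ⟨c, g, hc, hcg⟩ := ihbc_class_eq_zero (tbq_bar_isFunctionFieldGen 𝔓 K) hp.ne_zero
    yb hyb hxb0
  obtain ⟨d, hd⟩ := IsAlgClosed.exists_pow_nat_eq c hp.pos
  have hd0 : d ≠ 0 := by
    rintro rfl
    rw [zero_pow hp.ne_zero] at hd
    exact hc hd.symm
  apply hnp
  refine ⟨Units.mk0 (algebraMap (IsLocalRing.ResidueField ↥𝔓.P) ↥(tbBarF 𝔓 K) d)
    ((map_ne_zero _).mpr hd0) * g, Units.ext ?_⟩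
  rw [hcg, Units.val_pow_eq_pow_val, Units.val_pow_eq_pow_val, Units.val_mul, Units.val_mk0,
    mul_pow, ← map_pow, hd]

end

end Fermat.Agent.MLT
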