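/-
MLT / [L2-JL] / P3 (G-mid) (helper3), part 3: **divisibility of the divisors of the three residues on
one chart** (generic three-valuation base of T4-V, no inertia level yet).

`P` any presentation of the chart ring `B = IntCl(L[a0 y₀]) ∩ 𝒪` (dictionaries `hB`, `hvals`),
`G : T4vmGood … y₀` the good reduction of the chart `y₀` at level `N'`, `P.B` noetherian and regular
at every closed point of the special fibre (`hreg`), the residue fields of the places of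
`E' = k(X₀(N'))` equal to `k` (`hres`).  For a unit `z` of `𝒪` which satisfies the Kummer condition
of exponent `m` over `L`, and a place `s` of `E'` at which the reduced chart `ȳ` is regular:

  `m ∣ ord_s (ρ_inf z)`, `m ∣ ord_s (ρ_mid z)`, `m ∣ ord_s (ρ_0 z)`        (`mltj3_div_chart`).

Ingredients: `mltj3_point` (the point `𝔫 = ρ⁻¹(𝔪_s)` of the chart), `mltj3_local` (local
factoriality), `mltj3_happ_of` with lead's `t4ve_crt_unit` / `t4ve_approx`.
-/
import Fermat.Agent.Lib.MLT.L2.P3.Local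
import Fermat.Agent.Lib.T4.Inst.ChartPt
import Fermat.Agent.Lib.T4.New.ChartTwoK2
import Fermat.Agent.Lib.T4.New.InstU

set_option autoImplicit false
set_option linter.unusedSectionVars false
set_option linter.unusedVariables false
set_option linter.style.haveILetI false
set_option synthInstance.maxHeartbeats 400000

open HahnSeries ModularCurve AlgebraicCurve Fermat.Agent.T1 Fermat.Agent.T2 Fermat.Agent.T4
  Fermat.Agent.Curve Fermat.Agent.Curve.PlaceAux IntermediateField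

noncomputable section

namespace Fermat.Agent.MLT

section Inst

attribute [local instance] t2iAlgebra t2i_isScalarTower

variable {L : Type} [Field L] [Algebra ℚ L] (O : ValuationSubring L) {k : Type} [Field k]
  (π : ↥O →+* k) [IsDiscreteValuationRing ↥O] (hπ : Function.Surjective π) [IsAlgClosed k]
  {N' q : ℕ} [NeZero N'] [hq : Fact q.Prime] [CharP k q] (hN' : (N' : k) ≠ 0)
  (W1 : T2iAL L N' q) (Fr : T2iFrob k N' q) (W : T4iAL L N' q)
  (hqO : Irreducible ((q : ℕ) : ↥O))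
  {L' : Type*} [Field L'] [Algebra L L'] (O' : ValuationSubring L')
  [IsDiscreteValuationRing ↥O'] (π' : ↥O' →+* k) (C : T4iCyc O O' π π' q)
  (M : T4iMid L L' N' q C.ζ)

/-! ### Valuation one versus units -/

theorem mltj3_val_one_iff {F : Type*} [Field F] (V : ValuationSubring F) {x : F} (hx : x ≠ 0) :
    V.valuation x = 1 ↔ x ∈ V ∧ x⁻¹ ∈ V := by
  constructor
  · intro h
    refine ⟨(V.valuation_le_one_iff _).mp h.le, ?_⟩
    rw [← V.valuation_le_one_iff, map_inv₀, h, inv_one]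
  · rintro ⟨h1, h2⟩
    have a1 := (V.valuation_le_one_iff _).mpr h1
    have a2 := (V.valuation_le_one_iff _).mpr h2
    rw [map_inv₀] at a2
    have hv0 : V.valuation x ≠ 0 := by rwa [ne_eq, map_eq_zero]
    have a3 : 1 ≤ V.valuation x := by
      rw [← inv_le_one₀ (zero_lt_iff.mpr hv0)]
      exact a2
    exact le_antisymm a1 a3

/-! ### The three residue maps on `𝒪` are "residue maps" in the sense of `mltj3_local` -/

theorem mltj3_R1_eq_zero_iff (f : ↥(t4vInput O π hπ hN' W1 Fr W hqO O' π' C M).Ov) :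
    t4vmR1 O π hπ hN' W1 Fr W hqO O' π' C M f = 0 ↔
      (t4vOinf (N' := N') (q := q) O π hπ).valuation (f : ↥(TaF L (N' * q * q))) < 1 := by
  rw [← t4vr_ρ₁_eq_zero_iff O π hπ hN' W1 Fr W hqO O' π' C M f, ← coe_t4vmR1]
  constructor
  · intro h
    rw [h]
    rfl
  · intro h
    exact Subtype.ext h

theorem mltj3_R2_eq_zero_iff (f : ↥(t4vInput O π hπ hN' W1 Fr W hqO O' π' C M).Ov) :
    t4vmR2 O π hπ hN' W1 Fr W hqO O' π' C M f = 0 ↔
      (t4vOmid O π hπ O' π' C M).valuation (f : ↥(TaF L (N' * q * q))) < 1 := by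
  rw [← t4vr_ρ₂_eq_zero_iff O π hπ hN' W1 Fr W hqO O' π' C M f, ← coe_t4vmR2]
  constructor
  · intro h
    rw [h]
    rfl
  · intro h
    exact Subtype.ext h

theorem mltj3_R3_eq_zero_iff (f : ↥(t4vInput O π hπ hN' W1 Fr W hqO O' π' C M).Ov) :
    t4vmR3 O π hπ hN' W1 Fr W hqO O' π' C M f = 0 ↔
      (t4vO0 O π hπ W).valuation (f : ↥(TaF L (N' * q * q))) < 1 := by
  rw [← t4vr_ρ₃_eq_zero_iff O π hπ hN' W1 Fr W hqO O' π' C M f, ← coe_t4vmR3]
  constructor
  · intro h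
    rw [h]
    rfl
  · intro h
    exact Subtype.ext h

/-! ### CRT for one residue -/

theorem mltj3_crt1 (a : ↥(modularFunctionFieldFullC k N')) (ha : a ≠ 0) :
    ∃ g : ↥(t4vInput O π hπ hN' W1 Fr W hqO O' π' C M).Ov,
      t4vmR1 O π hπ hN' W1 Fr W hqO O' π' C M g = a := by
  obtain ⟨g, h1, -, -⟩ := t4ni_hcrt O π hπ hN' W1 Fr W hqO O' π' C M a 1 1 ha one_ne_zero
    one_ne_zero
  exact ⟨g, h1⟩

theorem mltj3_crt2 (a : ↥(modularFunctionFieldFullC k N')) (ha : a ≠ 0) :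
    ∃ g : ↥(t4vInput O π hπ hN' W1 Fr W hqO O' π' C M).Ov,
      t4vmR2 O π hπ hN' W1 Fr W hqO O' π' C M g = a := by
  obtain ⟨g, -, h1, -⟩ := t4ni_hcrt O π hπ hN' W1 Fr W hqO O' π' C M 1 a 1 one_ne_zero ha
    one_ne_zero
  exact ⟨g, h1⟩

theorem mltj3_crt3 (a : ↥(modularFunctionFieldFullC k N')) (ha : a ≠ 0) :
    ∃ g : ↥(t4vInput O π hπ hN' W1 Fr W hqO O' π' C M).Ov,
      t4vmR3 O π hπ hN' W1 Fr W hqO O' π' C M g = a := by
  obtain ⟨g, -, -, h1⟩ := t4ni_hcrt O π hπ hN' W1 Fr W hqO O' π' C M 1 1 a one_ne_zero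
    one_ne_zero ha
  exact ⟨g, h1⟩

/-! ### Weak approximation: moving an element into `𝒪` without changing one valuation -/

include hN' W1 Fr in
/-- for every `s ≠ 0` there is `g ∈ 𝒪`, a unit at all three valuation rings at which `s` is
integral, with `s g ∈ 𝒪` -/
theorem mltj3_approx (s : ↥(TaF L (N' * q * q))) (hs0 : s ≠ 0) :
    ∃ g : ↥(TaF L (N' * q * q)), g ∈ (t4vInput O π hπ hN' W1 Fr W hqO O' π' C M).Ov ∧
      s * g ∈ (t4vInput O π hπ hN' W1 Fr W hqO O' π' C M).Ov ∧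
      (s ∈ t4vOinf (N' := N') (q := q) O π hπ →
        (t4vOinf (N' := N') (q := q) O π hπ).valuation g = 1) ∧
      (s ∈ t4vOmid O π hπ O' π' C M → (t4vOmid O π hπ O' π' C M).valuation g = 1) ∧
      (s ∈ t4vO0 O π hπ W → (t4vO0 O π hπ W).valuation g = 1) := by
  set su : (↥(TaF L (N' * q * q)))ˣ := Units.mk0 s hs0 with hsu
  set a := t4niVinf O π hπ hqO (N' := N') (Additive.ofMul su) with ha
  set b := t4niVmid O π hπ O' π' C M (Additive.ofMul su) with hb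
  set c := t4niV0 O π hπ W hqO (Additive.ofMul su) with hc
  obtain ⟨g, hg1, hg2, hg3⟩ := t4ni_happrox O π hπ hN' W1 Fr W hqO O' π' C M
    (max 0 (-a)) (max 0 (-b)) (max 0 (-c))
  have hU1 := t4ni_unif_inf O π hπ (N' := N') hqO
  have hU2 := t4ni_unif_mid O π hπ O' π' C M
  have hU3 := t4ni_unif_zero O π hπ W hqO
  have hsg : ((su * g : (↥(TaF L (N' * q * q)))ˣ) : ↥(TaF L (N' * q * q))) = s * g := rfl
  refine ⟨(g : ↥(TaF L (N' * q * q))), ?_, ?_, ?_, ?_, ?_⟩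
  · refine (mem_t4vInput_Ov_iff O π hπ hN' W1 Fr W hqO O' π' C M _).mpr ⟨?_, ?_, ?_⟩
    · exact (hU1.mem_iff_ord_nonneg g).mpr (by
        show 0 ≤ t4niVinf O π hπ hqO (N' := N') (Additive.ofMul g)
        rw [hg1]; exact le_max_left _ _)
    · exact (hU3.mem_iff_ord_nonneg g).mpr (by
        show 0 ≤ t4niV0 O π hπ W hqO (Additive.ofMul g)
        rw [hg3]; exact le_max_left _ _)
    · exact (hU2.mem_iff_ord_nonneg g).mpr (by
        show 0 ≤ t4niVmid O π hπ O' π' C M (Additive.ofMul g)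
        rw [hg2]; exact le_max_left _ _)
  · rw [← hsg]
    refine (mem_t4vInput_Ov_iff O π hπ hN' W1 Fr W hqO O' π' C M _).mpr ⟨?_, ?_, ?_⟩
    · refine (hU1.mem_iff_ord_nonneg (su * g)).mpr ?_
      show 0 ≤ t4niVinf O π hπ hqO (N' := N') (Additive.ofMul (su * g))
      rw [ofMul_mul, map_add, hg1, ← ha]
      have := le_max_right 0 (-a)
      omega
    · refine (hU3.mem_iff_ord_nonneg (su * g)).mpr ?_
      show 0 ≤ t4niV0 O π hπ W hqO (Additive.ofMul (su * g))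
      rw [ofMul_mul, map_add, hg3, ← hc]
      have := le_max_right 0 (-c)
      omega
    · refine (hU2.mem_iff_ord_nonneg (su * g)).mpr ?_
      show 0 ≤ t4niVmid O π hπ O' π' C M (Additive.ofMul (su * g))
      rw [ofMul_mul, map_add, hg2, ← hb]
      have := le_max_right 0 (-b)
      omega
  · intro hs
    have h0 : 0 ≤ a := (hU1.mem_iff_ord_nonneg su).mp hs
    have h1 : t4niVinf O π hπ hqO (N' := N') (Additive.ofMul g) = 0 := by
      rw [hg1]; exact max_eq_left (by omega)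
    have h2 := (hU1.unit_iff_ord_eq_zero g).mpr h1
    exact (mltj3_val_one_iff _ g.ne_zero).mpr ⟨h2.1, by
      rw [← Units.val_inv_eq_inv_val]; exact h2.2⟩
  · intro hs
    have h0 : 0 ≤ b := (hU2.mem_iff_ord_nonneg su).mp hs
    have h1 : t4niVmid O π hπ O' π' C M (Additive.ofMul g) = 0 := by
      rw [hg2]; exact max_eq_left (by omega)
    have h2 := (hU2.unit_iff_ord_eq_zero g).mpr h1
    exact (mltj3_val_one_iff _ g.ne_zero).mpr ⟨h2.1, by
      rw [← Units.val_inv_eq_inv_val]; exact h2.2⟩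
  · intro hs
    have h0 : 0 ≤ c := (hU3.mem_iff_ord_nonneg su).mp hs
    have h1 : t4niV0 O π hπ W hqO (Additive.ofMul g) = 0 := by
      rw [hg3]; exact max_eq_left (by omega)
    have h2 := (hU3.unit_iff_ord_eq_zero g).mpr h1
    exact (mltj3_val_one_iff _ g.ne_zero).mpr ⟨h2.1, by
      rw [← Units.val_inv_eq_inv_val]; exact h2.2⟩

/-! ### The core: one vertical branch on one chart -/

include hN' W1 Fr hqO in
/-- **the core of `mltj3_div_chart`**: `V` one of the three vertical valuation rings, `ρ : 𝒪 → E'`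
its residue map, `s` a place of `E'` such that `ρ (B) ⊆ O_s` -/
theorem mltj3_div_core (P : T4Pres ↥(TaF L (N' * q * q)))
    (hBO : P.B ≤ (t4vInput O π hπ hN' W1 Fr W hqO O' π' C M).Ov)
    {x : ↥(TaF L (N' * q * q))}
    (hvals : P.vals = t4vpHor L x ∪ t4vwVer O π hπ W O' π' C M)
    (noeth : IsNoetherianRing ↥P.B)
    (hreg : ∀ 𝔫 : Ideal ↥P.B, 𝔫.IsMaximal →
      (⟨t4vQ L N' q, t4rt_Q_mem_B hvals⟩ : ↥P.B) ∈ 𝔫 → P.RegAt 𝔫)
    {m : ℕ} (hm : m ≠ 0) {z : ↥(TaF L (N' * q * q))} (hz0 : z ≠ 0)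
    (hzO : z ∈ (t4vInput O π hπ hN' W1 Fr W hqO O' π' C M).Ov)
    (hzO' : z⁻¹ ∈ (t4vInput O π hπ hN' W1 Fr W hqO O' π' C M).Ov)
    (hdiv : ∀ v : Place L ↥(TaF L (N' * q * q)), (m : ℤ) ∣ v.ord z)
    (s : Place k ↥(modularFunctionFieldFullC k N'))
    (hres : ∀ e : ↥(modularFunctionFieldFullC k N'), e ∈ s.toValuationSubring →
      ∃ c : k, OrdGE s (e - algebraMap k ↥(modularFunctionFieldFullC k N') c) 1)
    (V : ValuationSubring ↥(TaF L (N' * q * q))) (hVver : V ∈ t4vwVer O π hπ W O' π' C M)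
    (ρ : ↥(t4vInput O π hπ hN' W1 Fr W hqO O' π' C M).Ov →+* ↥(modularFunctionFieldFullC k N'))
    (hρ : ∀ f : ↥(t4vInput O π hπ hN' W1 Fr W hqO O' π' C M).Ov,
      ρ f = 0 ↔ V.valuation (f : ↥(TaF L (N' * q * q))) < 1)
    (hcrt : ∀ a : ↥(modularFunctionFieldFullC k N'), a ≠ 0 →
      ∃ g : ↥(t4vInput O π hπ hN' W1 Fr W hqO O' π' C M).Ov, ρ g = a)
    (happr : ∀ t : ↥(TaF L (N' * q * q)), t ≠ 0 → t ∈ V →
      ∃ g : ↥(TaF L (N' * q * q)), g ∈ (t4vInput O π hπ hN' W1 Fr W hqO O' π' C M).Ov ∧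
        t * g ∈ (t4vInput O π hπ hN' W1 Fr W hqO O' π' C M).Ov ∧ V.valuation g = 1)
    (hint : ∀ b : ↥P.B, ρ ⟨(b : ↥(TaF L (N' * q * q))), hBO b.2⟩ ∈ s.toValuationSubring)
    (cst : k → ↥P.B)
    (hcst : ∀ c : k, ρ ⟨((cst c : ↥P.B) : ↥(TaF L (N' * q * q))), hBO (cst c).2⟩ =
      algebraMap k ↥(modularFunctionFieldFullC k N') c) :
    (m : ℤ) ∣ s.ord (ρ ⟨z, hzO⟩) := by
  haveI := noeth
  have hVvals : V ∈ P.vals := by
    rw [hvals]
    exact Or.inr hVver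
  -- units of `𝒪` are units of the three vertical valuation rings
  have hunit : ∀ V' ∈ t4vwVer O π hπ W O' π' C M, V'.valuation z = 1 := by
    intro V' hV'
    have a1 := (mem_t4vInput_Ov_iff O π hπ hN' W1 Fr W hqO O' π' C M _).mp hzO
    have a2 := (mem_t4vInput_Ov_iff O π hπ hN' W1 Fr W hqO O' π' C M _).mp hzO'
    rcases (mem_t4vwVer O π hπ W O' π' C M V').mp hV' with rfl | rfl | rfl
    · exact (mltj3_val_one_iff _ hz0).mpr ⟨a1.1, a2.1⟩
    · exact (mltj3_val_one_iff _ hz0).mpr ⟨a1.2.2, a2.2.2⟩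
    · exact (mltj3_val_one_iff _ hz0).mpr ⟨a1.2.1, a2.2.1⟩
  -- the point
  obtain ⟨𝔫, hmax, hthr, hnot⟩ := mltj3_point P hVvals
    (ρ.comp (Subring.inclusion hBO)) s hint (fun b => hρ _) cst hcst hres
  haveI := hmax
  haveI := hmax.isPrime
  have hQ𝔫 : (⟨t4vQ L N' q, t4rt_Q_mem_B hvals⟩ : ↥P.B) ∈ 𝔫 :=
    hthr.2 _ (t4vwVer_q O π hπ W hqO O' π' C M V hVver)
  have hreg𝔫 := hreg 𝔫 hmax hQ𝔫
  -- the roots
  have hroot : ∀ V' ∈ P.through 𝔫, ∃ t : ↥(TaF L (N' * q * q)),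
      V'.valuation (t ^ m * z) = 1 := by
    intro V' hV'
    by_cases hv : V' ∈ P.vert (t4vQ L N' q)
    · rw [t4rt_vert hqO hvals] at hv
      exact ⟨1, by rw [one_pow, one_mul]; exact hunit V' hv⟩
    · exact t4nc2_hroot O π hπ W hqO O' π' C M hvals hz0 hdiv V' hV'.1 hv
  refine mltj3_local P 𝔫 hreg𝔫 hm hz0 hroot hthr (hunit V hVver)
    (t4vInput O π hπ hN' W1 Fr W hqO O' π' C M).Ov hBO ρ hρ ?_ (fun e => s.ord e)
    (fun a b ha hb => s.ord_mul ha hb) (fun b hb => (hnot b hb).2) hzO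
  intro t ht
  refine mltj3_happ_of V _ ρ hρ hcrt (fun t ht => ?_) t ht
  have ht0 : t ≠ 0 := by
    rintro rfl
    rw [map_zero] at ht
    exact zero_ne_one ht
  exact happr t ht0 ((V.valuation_le_one_iff _).mp ht.le)

/-! ### One chart, the three branches -/

/-- the valuation ring of a place at which `ȳ` is regular contains `k[ȳ]` -/
theorem mltj3_adjoin_le {E : Type*} [Field E] [Algebra k E] (s : Place k E) {yb : E}
    (hs : yb ∈ s.toValuationSubring) : ∀ e ∈ Algebra.adjoin k {yb}, e ∈ s.toValuationSubring := by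
  intro e he
  induction he using Algebra.adjoin_induction with
  | mem x hx =>
    rw [Set.mem_singleton_iff] at hx
    rw [hx]
    exact hs
  | algebraMap c => exact s.algebraMap_mem' c
  | add x z _ _ ihx ihz => exact s.toValuationSubring.add_mem _ _ ihx ihz
  | mul x z _ _ ihx ihz => exact s.toValuationSubring.mul_mem _ _ ihx ihz

include hN' W1 Fr hqO in
/-- **divisibility of the divisors of the three residues on one chart**, at the places of `E'`
where the reduced chart is regular -/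
theorem mltj3_div_chart {y0 : ↥(TaF L N')} (G : T4vmGood O π hπ hN' Fr y0)
    (P : T4Pres ↥(TaF L (N' * q * q)))
    (hB : ∀ f, f ∈ P.B ↔ f ∈ t2Int (K := L) (t4vA0 L N' q y0) ∧
      f ∈ (t4vInput O π hπ hN' W1 Fr W hqO O' π' C M).Ov)
    {x : ↥(TaF L (N' * q * q))}
    (hvals : P.vals = t4vpHor L x ∪ t4vwVer O π hπ W O' π' C M)
    (noeth : IsNoetherianRing ↥P.B)
    (hreg : ∀ 𝔫 : Ideal ↥P.B, 𝔫.IsMaximal →
      (⟨t4vQ L N' q, t4rt_Q_mem_B hvals⟩ : ↥P.B) ∈ 𝔫 → P.RegAt 𝔫)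
    {m : ℕ} (hm : m ≠ 0) {z : ↥(TaF L (N' * q * q))} (hz0 : z ≠ 0)
    (hzO : z ∈ (t4vInput O π hπ hN' W1 Fr W hqO O' π' C M).Ov)
    (hzO' : z⁻¹ ∈ (t4vInput O π hπ hN' W1 Fr W hqO O' π' C M).Ov)
    (hdiv : ∀ v : Place L ↥(TaF L (N' * q * q)), (m : ℤ) ∣ v.ord z)
    (s : Place k ↥(modularFunctionFieldFullC k N'))
    (hres : ∀ e : ↥(modularFunctionFieldFullC k N'), e ∈ s.toValuationSubring →
      ∃ c : k, OrdGE s (e - algebraMap k ↥(modularFunctionFieldFullC k N') c) 1)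
    (hs : G.yb ∈ s.toValuationSubring) :
    (m : ℤ) ∣ s.ord (t4vmR1 O π hπ hN' W1 Fr W hqO O' π' C M ⟨z, hzO⟩) ∧
    (m : ℤ) ∣ s.ord (t4vmR2 O π hπ hN' W1 Fr W hqO O' π' C M ⟨z, hzO⟩) ∧
    (m : ℤ) ∣ s.ord (t4vmR3 O π hπ hN' W1 Fr W hqO O' π' C M ⟨z, hzO⟩) := by
  have hBO := t4vm_B_le W1 W hqO O' π' C M P hB
  have hA := mltj3_adjoin_le s hs
  have hver := mem_t4vwVer O π hπ W O' π' C M
  refine ⟨?_, ?_, ?_⟩
  · refine mltj3_div_core O π hπ hN' W1 Fr W hqO O' π' C M P hBO hvals noeth hreg hm hz0 hzO hzO'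
      hdiv s hres (t4vOinf (N' := N') (q := q) O π hπ) ((hver _).mpr (Or.inl rfl))
      (t4vmR1 O π hπ hN' W1 Fr W hqO O' π' C M)
      (mltj3_R1_eq_zero_iff O π hπ hN' W1 Fr W hqO O' π' C M)
      (mltj3_crt1 O π hπ hN' W1 Fr W hqO O' π' C M) ?_ ?_
      (t4vkCst W1 W hqO O' π' C M P hB) ?_
    · intro t ht0 ht
      obtain ⟨g, h1, h2, h3, -, -⟩ := mltj3_approx O π hπ hN' W1 Fr W hqO O' π' C M t ht0
      exact ⟨g, h1, h2, h3 ht⟩
    · intro b
      exact mltj3_mem_of_isIntegral _ _ hA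
        (t4vm_int_R1 O π hπ hN' W1 Fr W hqO O' π' C M _ G.int _ ((hB _).mp b.2).1)
    · intro c
      have h1 : (⟨((t4vkCst W1 W hqO O' π' C M P hB c : ↥P.B) : ↥(TaF L (N' * q * q))),
          hBO (t4vkCst W1 W hqO O' π' C M P hB c).2⟩ :
          ↥(t4vInput O π hπ hN' W1 Fr W hqO O' π' C M).Ov) =
          Subring.inclusion hBO (t4vkCst W1 W hqO O' π' C M P hB c) := rfl
      rw [h1, t4vk_incl_cst, t4vm_R1_A0, t4vk_res_const, Function.surjInv_eq hπ c]
  · refine mltj3_div_core O π hπ hN' W1 Fr W hqO O' π' C M P hBO hvals noeth hreg hm hz0 hzO hzO'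
      hdiv s hres (t4vOmid O π hπ O' π' C M) ((hver _).mpr (Or.inr (Or.inl rfl)))
      (t4vmR2 O π hπ hN' W1 Fr W hqO O' π' C M)
      (mltj3_R2_eq_zero_iff O π hπ hN' W1 Fr W hqO O' π' C M)
      (mltj3_crt2 O π hπ hN' W1 Fr W hqO O' π' C M) ?_ ?_
      (t4vkCst W1 W hqO O' π' C M P hB) ?_
    · intro t ht0 ht
      obtain ⟨g, h1, h2, -, h3, -⟩ := mltj3_approx O π hπ hN' W1 Fr W hqO O' π' C M t ht0
      exact ⟨g, h1, h2, h3 ht⟩
    · intro b
      exact mltj3_mem_of_isIntegral _ _ hA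
        (t4vm_int_R2 O π hπ hN' W1 Fr W hqO O' π' C M _ G.int _ ((hB _).mp b.2).1)
    · intro c
      have h1 : (⟨((t4vkCst W1 W hqO O' π' C M P hB c : ↥P.B) : ↥(TaF L (N' * q * q))),
          hBO (t4vkCst W1 W hqO O' π' C M P hB c).2⟩ :
          ↥(t4vInput O π hπ hN' W1 Fr W hqO O' π' C M).Ov) =
          Subring.inclusion hBO (t4vkCst W1 W hqO O' π' C M P hB c) := rfl
      rw [h1, t4vk_incl_cst, t4vm_R2_A0, t4vk_res_const, Function.surjInv_eq hπ c]
  · refine mltj3_div_core O π hπ hN' W1 Fr W hqO O' π' C M P hBO hvals noeth hreg hm hz0 hzO hzO'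
      hdiv s hres (t4vO0 O π hπ W) ((hver _).mpr (Or.inr (Or.inr rfl)))
      (t4vmR3 O π hπ hN' W1 Fr W hqO O' π' C M)
      (mltj3_R3_eq_zero_iff O π hπ hN' W1 Fr W hqO O' π' C M)
      (mltj3_crt3 O π hπ hN' W1 Fr W hqO O' π' C M) ?_ ?_
      (t4vkCst W1 W hqO O' π' C M P hB) ?_
    · intro t ht0 ht
      obtain ⟨g, h1, h2, -, -, h3⟩ := mltj3_approx O π hπ hN' W1 Fr W hqO O' π' C M t ht0
      exact ⟨g, h1, h2, h3 ht⟩
    · intro b
      exact mltj3_mem_of_isIntegral _ _ hA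
        (t4vm_int_R3 O π hπ hN' W1 Fr W hqO O' π' C M _ G.int _ ((hB _).mp b.2).1 G.phi_mem)
    · intro c
      have h1 : (⟨((t4vkCst W1 W hqO O' π' C M P hB c : ↥P.B) : ↥(TaF L (N' * q * q))),
          hBO (t4vkCst W1 W hqO O' π' C M P hB c).2⟩ :
          ↥(t4vInput O π hπ hN' W1 Fr W hqO O' π' C M).Ov) =
          Subring.inclusion hBO (t4vkCst W1 W hqO O' π' C M P hB c) := rfl
      rw [h1, t4vk_incl_cst, t4vm_R3_A0, t4vk_res_const, Function.surjInv_eq hπ c,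
        t4vmPhi2_algebraMap]

end Inst

end Fermat.Agent.MLT
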