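/-
MLT / [L2-JL] / P3 (G-mid) (helper3), part 4: **regularity of the two charts of the T4 model at the
inertia level**, extracted from the step-C instance (`T4nCChart` for the trivial Kummer function
`z = 1`): `mltj3_hreg1` (chart `X = j^(p²) - j`), `mltj3_hreg2` (chart `X⁻¹`).
-/
import Fermat.Agent.Lib.T4.New.StepCFixU

set_option autoImplicit false
set_option linter.unusedSectionVars false
set_option linter.unusedVariables false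
set_option linter.style.haveILetI false
set_option synthInstance.maxHeartbeats 400000

open HahnSeries ModularCurve AlgebraicCurve Fermat.Agent.T1 Fermat.Agent.T2 Fermat.Agent.T4
  Fermat.Agent.Curve Fermat.Agent.TW Fermat.Agent.S05Lib IntermediateField

noncomputable section

namespace Fermat.Agent.MLT

local notation "Qb" => AlgebraicClosure ℚ

attribute [local instance] t2i_dvr t2i_isAlgClosed t2i_charP t2i_fact t2iAlgebra t2i_isScalarTower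

variable (𝔓 : FFPlace) (N' : ℕ) [NeZero N'] (h : ¬ 𝔓.p ∣ N') {ζ : Qb}
  (hζ : IsPrimitiveRoot ζ 𝔓.p) (h49 : 4 ∣ N' ∨ 9 ∣ N')

set_option maxHeartbeats 1600000 in
include h49 in
/-- **chart 1 is regular at every closed point of the special fibre** -/
theorem mltj3_hreg1 :
    ∀ 𝔫 : Ideal ↥(t4vyPFix 𝔓 N' h hζ).B, 𝔫.IsMaximal →
      ∀ hQ : t4vQFix 𝔓 N' ∈ (t4vyPFix 𝔓 N' h hζ).B,
        (⟨t4vQFix 𝔓 N', hQ⟩ : ↥(t4vyPFix 𝔓 N' h hζ).B) ∈ 𝔫 → (t4vyPFix 𝔓 N' h hζ).RegAt 𝔫 := by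
  letI := t4cyAlgebra 𝔓 (le_top : t4cyH 𝔓 ζ ≤ ⊤)
  have key : ∀ (V : ValuationSubring ↥(tbLevF 𝔓 (N' * 𝔓.p * 𝔓.p) ⊤))
      (c : ↥(tbFix 𝔓 (⊤ : Subgroup 𝔓.I))), c = 1 →
      V.valuation (1 - algebraMap ↥(tbFix 𝔓 (⊤ : Subgroup 𝔓.I))
        ↥(tbLevF 𝔓 (N' * 𝔓.p * 𝔓.p) ⊤) c) < 1 := by
    intro V c hc
    rw [hc, map_one, sub_self, map_zero]
    exact zero_lt_one
  have C1 : ∃ (a2 b2 : ↥(t4vyPFix 𝔓 N' h hζ).B) (hh : ↥(tbLevF 𝔓 (N' * 𝔓.p * 𝔓.p) ⊤)),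
      T4nCChart (t4vyPFix 𝔓 N' h hζ) (t4vQ ↥(tbFix 𝔓 (⊤ : Subgroup 𝔓.I)) N' 𝔓.p) 1 1 𝔓.p
        (t4vOinf (N' := N') (q := 𝔓.p) (tbFixO 𝔓 ⊤) (tbFixRes 𝔓 ⊤) (tbFixRes_surjective 𝔓 ⊤))
        (t4vOmid (tbFixO 𝔓 ⊤) (tbFixRes 𝔓 ⊤) (tbFixRes_surjective 𝔓 ⊤)
          (tbFixO 𝔓 (t4cyH 𝔓 ζ)) (tbFixRes 𝔓 (t4cyH 𝔓 ζ)) (t4iCycFix 𝔓 hζ)
          (t4vMidFix 𝔓 N' h hζ))
        (t4vO0 (tbFixO 𝔓 ⊤) (tbFixRes 𝔓 ⊤) (tbFixRes_surjective 𝔓 ⊤) (t4iALFix 𝔓 ⊤ N' h))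
        1 a2 1 b2 hh := by
    refine ⟨_, _, 1, t4nsc_chart1_fix 𝔓 N' h hζ h49 (t4vyPFix 𝔓 N' h hζ) (t4vyPFix_vals 𝔓 N' h hζ)
      (mem_t4vyPFix_B 𝔓 N' h hζ) (t4vyPFix_noeth 𝔓 N' h hζ) (m := 1) one_ne_zero
      (Nat.coprime_one_left _) (z := 1) one_ne_zero ?_
      (ca := 1) (cb := 1) (fa := 1) (fb := 1) (a := 1) (b := 1)
      (Subring.one_mem _) ?_ ?_ (Subring.one_mem _) ?_ ?_ ?_ ?_ ?_ ?_ ?_ ?_ ?_ ?_ ?_ ?_ ?_⟩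
    · intro v
      rw [v.ord_one]
      exact dvd_zero _
    · rw [inv_one]
      exact Subring.one_mem _
    · exact map_one (tbFixRes 𝔓 ⊤)
    · rw [inv_one]
      exact Subring.one_mem _
    · exact map_one (tbFixRes 𝔓 ⊤)
    · rw [map_one, map_one, one_pow, mul_one]
    · rw [sub_self, map_zero]
      exact zero_lt_one
    · rw [OneMemClass.coe_one, map_one, sub_self, map_zero]
      exact zero_lt_one
    · rw [one_pow, map_one]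
    · rw [map_one, map_one, one_pow, mul_one]
    · rw [sub_self, map_zero]
      exact zero_lt_one
    · rw [OneMemClass.coe_one, map_one, sub_self, map_zero]
      exact zero_lt_one
    · rw [one_pow, map_one]
    · exact key _ _ (by rw [OneMemClass.coe_one, one_pow, mul_one])
    · exact key _ _ (by rw [OneMemClass.coe_one, one_pow, mul_one])
    · exact key _ _ (by rw [OneMemClass.coe_one, one_pow, mul_one])
  obtain ⟨a2, b2, hh, C⟩ := C1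
  intro 𝔫 h𝔫 hQ hQ𝔫
  exact C.hreg 𝔫 h𝔫 hQ𝔫

set_option maxHeartbeats 1600000 in
include h49 in
/-- **chart 2 is regular at every closed point of the special fibre** -/
theorem mltj3_hreg2 :
    ∀ 𝔫 : Ideal ↥(t4vyP2Fix 𝔓 N' h hζ).B, 𝔫.IsMaximal →
      ∀ hQ : t4vQFix 𝔓 N' ∈ (t4vyP2Fix 𝔓 N' h hζ).B,
        (⟨t4vQFix 𝔓 N', hQ⟩ : ↥(t4vyP2Fix 𝔓 N' h hζ).B) ∈ 𝔫 → (t4vyP2Fix 𝔓 N' h hζ).RegAt 𝔫 := by
  letI := t4cyAlgebra 𝔓 (le_top : t4cyH 𝔓 ζ ≤ ⊤)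
  have key : ∀ (V : ValuationSubring ↥(tbLevF 𝔓 (N' * 𝔓.p * 𝔓.p) ⊤))
      (c : ↥(tbFix 𝔓 (⊤ : Subgroup 𝔓.I))), c = 1 →
      V.valuation (1 - algebraMap ↥(tbFix 𝔓 (⊤ : Subgroup 𝔓.I))
        ↥(tbLevF 𝔓 (N' * 𝔓.p * 𝔓.p) ⊤) c) < 1 := by
    intro V c hc
    rw [hc, map_one, sub_self, map_zero]
    exact zero_lt_one
  have hQ := t4nsc_two_le 𝔓
  have T := t4nsc_top_fix 𝔓 N' h hζ h49 (t4vyPFix 𝔓 N' h hζ) (t4vyPFix_vals 𝔓 N' h hζ)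
    (mem_t4vyPFix_B 𝔓 N' h hζ)
  obtain ⟨a2, b2, -, -, C⟩ := t4nc2_chart2_fix_K2 𝔓 N' h h49 hζ T
    (t4rgf_low0 𝔓 N' h hQ h49) (t4rgf_regG0 𝔓 N' h hQ h49) (t4rgf_regM0 𝔓 N' h hQ h49)
    (t4vyP2Fix_vals 𝔓 N' h hζ) (mem_t4vyP2Fix_B 𝔓 N' h hζ) (t4vyP2Fix_noeth 𝔓 N' h hζ)
    (m := 1) one_ne_zero (Nat.coprime_one_left _) (z := 1) one_ne_zero
    (fun v => by rw [v.ord_one]; exact dvd_zero _) (a := 1) (b := 1)
    (by rw [one_pow, map_one]) (by rw [one_pow, map_one]) (hh := 1)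
    (key _ _ (by rw [OneMemClass.coe_one, one_pow, mul_one]))
    (key _ _ (by rw [OneMemClass.coe_one, one_pow, mul_one]))
    (key _ _ (by rw [OneMemClass.coe_one, one_pow, mul_one]))
  intro 𝔫 h𝔫 hQ' hQ𝔫
  exact C.hreg 𝔫 h𝔫 hQ𝔫

end Fermat.Agent.MLT
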