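/-
MLT / [L2-JL] / P3 (G-mid) (helper3), part 5: **(a) divisibility** `MltL2AbDivAt` at a rigid level
`K` (`4 ∣ K ∨ 9 ∣ K`): for a Kummer function `y ∈ D.U` of exponent `p` (prime to `q`) over the inertia
field, the divisors of the three residues `r_inf y, r_mid y, r_0 y ∈ 𝔽̄_q(X₀(K))` are divisible by `p`.

Proof: at a place `s` of `𝔽̄_q(X₀(K))` where `X̄ = j̄^(q²) - j̄` is regular use chart 1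
(`t4vyPFix`), otherwise chart 2 (`t4vyP2Fix`), both regular at the closed points of the special fibre
(`mltj3_hreg1/2`), and `mltj3_div_chart`.
-/
import Fermat.Agent.Lib.MLT.L2.AbDefs
import Fermat.Agent.Lib.MLT.L2.P3.DivChart
import Fermat.Agent.Lib.MLT.L2.P3.DivReg

set_option autoImplicit false
set_option linter.unusedSectionVars false
set_option linter.unusedVariables false
set_option linter.style.haveILetI false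
set_option synthInstance.maxHeartbeats 400000

open HahnSeries ModularCurve AlgebraicCurve Fermat.Agent.T1 Fermat.Agent.T2 Fermat.Agent.T4
  Fermat.Agent.Curve Fermat.Agent.Curve.PlaceAux Fermat.Agent.TW Fermat.Agent.S05Lib
  IntermediateField

noncomputable section

namespace Fermat.Agent.MLT

section Inst

attribute [local instance] t2iAlgebra t2i_isScalarTower

variable {L : Type} [Field L] [Algebra ℚ L] (O : ValuationSubring L) {k : Type} [Field k]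
  (π : ↥O →+* k) [IsDiscreteValuationRing ↥O] (hπ : Function.Surjective π) [IsAlgClosed k]
  {N' q : ℕ} [NeZero N'] [hq : Fact q.Prime] [CharP k q] (hN' : (N' : k) ≠ 0)
  (W1 : T2iAL L N' q) (Fr : T2iFrob k N' q) (W : T4iAL L N' q)
  (hqO : Irreducible ((q : ℕ) : ↥O))
  {L' : Type*} [Field L'] [Algebra L L'] (O' : ValuationSubring L')
  [IsDiscreteValuationRing ↥O'] (π' : ↥O' →+* k) (C : T4iCyc O O' π π' q)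
  (M : T4iMid L L' N' q C.ζ)

include hN' W1 Fr hqO in
/-- `mltj3_div_chart` for the residue maps of the instance `t4niBU` -/
theorem mltj3_div_chartB {y0 : ↥(TaF L N')} (G : T4vmGood O π hπ hN' Fr y0)
    (P : T4Pres ↥(TaF L (N' * q * q)))
    (hB : ∀ f, f ∈ P.B ↔ f ∈ t2Int (K := L) (t4vA0 L N' q y0) ∧
      f ∈ (t4vInput O π hπ hN' W1 Fr W hqO O' π' C M).Ov)
    {x : ↥(TaF L (N' * q * q))}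
    (hvals : P.vals = t4vpHor L x ∪ t4vwVer O π hπ W O' π' C M)
    (noeth : IsNoetherianRing ↥P.B)
    (hreg : ∀ 𝔫 : Ideal ↥P.B, 𝔫.IsMaximal →
      (⟨t4vQ L N' q, t4rt_Q_mem_B hvals⟩ : ↥P.B) ∈ 𝔫 → P.RegAt 𝔫)
    {m : ℕ} (hm : m ≠ 0) (hqm : Nat.Coprime m q)
    (y : ↥(t4niAU O π hπ hN' W1 Fr W hqO O' π' C M m).U)
    (hdiv : ∀ v : Place L ↥(TaF L (N' * q * q)),
      (m : ℤ) ∣ v.ord (((y : (↥(TaF L (N' * q * q)))ˣ)) : ↥(TaF L (N' * q * q))))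
    (s : Place k ↥(modularFunctionFieldFullC k N'))
    (hres : ∀ e : ↥(modularFunctionFieldFullC k N'), e ∈ s.toValuationSubring →
      ∃ c : k, OrdGE s (e - algebraMap k ↥(modularFunctionFieldFullC k N') c) 1)
    (hs : G.yb ∈ s.toValuationSubring) :
    (m : ℤ) ∣ s.ord (((t4niBU O π hπ hN' W1 Fr W hqO O' π' C M m hm hqm).rinf y :
      (↥(modularFunctionFieldFullC k N'))ˣ) : ↥(modularFunctionFieldFullC k N')) ∧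
    (m : ℤ) ∣ s.ord (((t4niBU O π hπ hN' W1 Fr W hqO O' π' C M m hm hqm).rmid y :
      (↥(modularFunctionFieldFullC k N'))ˣ) : ↥(modularFunctionFieldFullC k N')) ∧
    (m : ℤ) ∣ s.ord (((t4niBU O π hπ hN' W1 Fr W hqO O' π' C M m hm hqm).r0 y :
      (↥(modularFunctionFieldFullC k N'))ˣ) : ↥(modularFunctionFieldFullC k N')) := by
  have hyO := t4ni_mem_Ov_of_mem_U O π hπ hN' W1 Fr W hqO O' π' C M m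
    (t4ni_happrox O π hπ hN' W1 Fr W hqO O' π' C M) y.2
  have hyO2 : (((y : (↥(TaF L (N' * q * q)))ˣ)) : ↥(TaF L (N' * q * q)))⁻¹ ∈
      (t4vInput O π hπ hN' W1 Fr W hqO O' π' C M).Ov := by
    rw [← Units.val_inv_eq_inv_val]
    exact hyO.2
  exact mltj3_div_chart O π hπ hN' W1 Fr W hqO O' π' C M G P hB hvals noeth hreg hm
    (y : (↥(TaF L (N' * q * q)))ˣ).ne_zero hyO.1 hyO2 hdiv s hres hs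

end Inst

local notation "Qb" => AlgebraicClosure ℚ

attribute [local instance] t2i_dvr t2i_isAlgClosed t2i_charP t2i_fact t2iAlgebra t2i_isScalarTower

variable (𝔓 : FFPlace) (K : ℕ) [NeZero K] (hK : ¬ 𝔓.p ∣ K) {ζ : Qb}
  (hζ : IsPrimitiveRoot ζ 𝔓.p) (p : ℕ) (hp0 : p ≠ 0) (hpq : Nat.Coprime p 𝔓.p)

set_option maxHeartbeats 1600000 in
/-- the dictionary of chart 1 in the conventions of `mltj3_div_chart` -/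
theorem mltj3_hB1 :
    letI := t4cyAlgebra 𝔓 (le_top : t4cyH 𝔓 ζ ≤ ⊤)
    ∀ f, f ∈ (t4vyPFix 𝔓 K hK hζ).B ↔
      f ∈ t2Int (K := ↥(tbFix 𝔓 (⊤ : Subgroup 𝔓.I)))
        (t4vA0 ↥(tbFix 𝔓 (⊤ : Subgroup 𝔓.I)) K 𝔓.p
          (t4vX' ↥(tbFix 𝔓 (⊤ : Subgroup 𝔓.I)) K (𝔓.p * 𝔓.p))) ∧
      f ∈ (t4vInput (tbFixO 𝔓 ⊤) (tbFixRes 𝔓 ⊤) (tbFixRes_surjective 𝔓 ⊤)
        (t2i_natCast_ne_zero 𝔓 hK) (t2iALFix 𝔓 ⊤ K hK) (t2iFrobFix 𝔓 K) (t4iALFix 𝔓 ⊤ K hK)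
        (t4cy_irreducible_p 𝔓) (tbFixO 𝔓 (t4cyH 𝔓 ζ)) (tbFixRes 𝔓 (t4cyH 𝔓 ζ))
        (t4iCycFix 𝔓 hζ) (t4vMidFix 𝔓 K hK hζ)).Ov := by
  letI := t4cyAlgebra 𝔓 (le_top : t4cyH 𝔓 ζ ≤ ⊤)
  have hB0 : ∀ f, f ∈ (t4vyPFix 𝔓 K hK hζ).B ↔
      f ∈ t2Int (K := ↥(tbFix 𝔓 (⊤ : Subgroup 𝔓.I)))
        (t4vX ↥(tbFix 𝔓 (⊤ : Subgroup 𝔓.I)) K 𝔓.p (𝔓.p * 𝔓.p)) ∧
      f ∈ (t4vInput (tbFixO 𝔓 ⊤) (tbFixRes 𝔓 ⊤) (tbFixRes_surjective 𝔓 ⊤)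
        (t2i_natCast_ne_zero 𝔓 hK) (t2iALFix 𝔓 ⊤ K hK) (t2iFrobFix 𝔓 K) (t4iALFix 𝔓 ⊤ K hK)
        (t4cy_irreducible_p 𝔓) (tbFixO 𝔓 (t4cyH 𝔓 ζ)) (tbFixRes 𝔓 (t4cyH 𝔓 ζ))
        (t4iCycFix 𝔓 hζ) (t4vMidFix 𝔓 K hK hζ)).Ov := mem_t4vyPFix_B 𝔓 K hK hζ
  intro f
  rw [← t4vX_eq]
  exact hB0 f

set_option maxHeartbeats 1600000 in
/-- the dictionary of chart 2 in the conventions of `mltj3_div_chart` -/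
theorem mltj3_hB2 :
    letI := t4cyAlgebra 𝔓 (le_top : t4cyH 𝔓 ζ ≤ ⊤)
    ∀ f, f ∈ (t4vyP2Fix 𝔓 K hK hζ).B ↔
      f ∈ t2Int (K := ↥(tbFix 𝔓 (⊤ : Subgroup 𝔓.I)))
        (t4vA0 ↥(tbFix 𝔓 (⊤ : Subgroup 𝔓.I)) K 𝔓.p
          (t4vX' ↥(tbFix 𝔓 (⊤ : Subgroup 𝔓.I)) K (𝔓.p * 𝔓.p))⁻¹) ∧
      f ∈ (t4vInput (tbFixO 𝔓 ⊤) (tbFixRes 𝔓 ⊤) (tbFixRes_surjective 𝔓 ⊤)
        (t2i_natCast_ne_zero 𝔓 hK) (t2iALFix 𝔓 ⊤ K hK) (t2iFrobFix 𝔓 K) (t4iALFix 𝔓 ⊤ K hK)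
        (t4cy_irreducible_p 𝔓) (tbFixO 𝔓 (t4cyH 𝔓 ζ)) (tbFixRes 𝔓 (t4cyH 𝔓 ζ))
        (t4iCycFix 𝔓 hζ) (t4vMidFix 𝔓 K hK hζ)).Ov := by
  letI := t4cyAlgebra 𝔓 (le_top : t4cyH 𝔓 ζ ≤ ⊤)
  have hB0 : ∀ f, f ∈ (t4vyP2Fix 𝔓 K hK hζ).B ↔
      f ∈ t2Int (K := ↥(tbFix 𝔓 (⊤ : Subgroup 𝔓.I)))
        (t4vX ↥(tbFix 𝔓 (⊤ : Subgroup 𝔓.I)) K 𝔓.p (𝔓.p * 𝔓.p))⁻¹ ∧
      f ∈ (t4vInput (tbFixO 𝔓 ⊤) (tbFixRes 𝔓 ⊤) (tbFixRes_surjective 𝔓 ⊤)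
        (t2i_natCast_ne_zero 𝔓 hK) (t2iALFix 𝔓 ⊤ K hK) (t2iFrobFix 𝔓 K) (t4iALFix 𝔓 ⊤ K hK)
        (t4cy_irreducible_p 𝔓) (tbFixO 𝔓 (t4cyH 𝔓 ζ)) (tbFixRes 𝔓 (t4cyH 𝔓 ζ))
        (t4iCycFix 𝔓 hζ) (t4vMidFix 𝔓 K hK hζ)).Ov := mem_t4vyP2Fix_B 𝔓 K hK hζ
  intro f
  rw [t4nc2_A0_X_inv]
  exact hB0 f

set_option maxHeartbeats 1600000 in
/-- **(a) divisibility of the divisors of the three residues** at a rigid level -/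
theorem mltj3_div (h49 : 4 ∣ K ∨ 9 ∣ K) : MltL2AbDivAt 𝔓 K hK hζ p hp0 hpq := by
  letI := t4cyAlgebra 𝔓 (le_top : t4cyH 𝔓 ζ ≤ ⊤)
  intro y hyW s
  have hQ := t4nsc_two_le 𝔓
  have hpQ : 𝔓.p ∣ 𝔓.p * 𝔓.p := dvd_mul_right _ _
  -- the Kummer condition over `L`
  have hdiv : ∀ v : Place ↥(tbFix 𝔓 (⊤ : Subgroup 𝔓.I)) ↥(tbLevF 𝔓 (K * 𝔓.p * 𝔓.p) ⊤),
      (p : ℤ) ∣ v.ord (((y : (↥(tbLevF 𝔓 (K * 𝔓.p * 𝔓.p) ⊤))ˣ)) :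
        ↥(tbLevF 𝔓 (K * 𝔓.p * 𝔓.p) ⊤)) := by
    intro v
    obtain ⟨P, hP⟩ := t4ru_cfe_fix 𝔓 ⊤ (K * 𝔓.p * 𝔓.p) v
    rw [← hP]
    exact (mem_t4nWbar 𝔓 _ p).mp hyW P
  have hres : ∀ e : ↥(tbBarF 𝔓 K), e ∈ s.toValuationSubring →
      ∃ c : IsLocalRing.ResidueField ↥𝔓.P,
        OrdGE s (e - algebraMap (IsLocalRing.ResidueField ↥𝔓.P) ↥(tbBarF 𝔓 K) c) 1 :=
    fun e he => exists_const_ordGE_one (tbq_bar_isFunctionFieldGen 𝔓 K) s he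
  have G₁ := t4vg_good_X 𝔓 ⊤ K hK h49 hQ hpQ
  have G₂ := t4vg_good_X_inv 𝔓 ⊤ K hK h49 hQ hpQ
  have hyb₁ := t4vg_yb_X 𝔓 ⊤ K hK G₁
  have hyb₂ := t4vg_yb_X_inv 𝔓 ⊤ K hK hQ hpQ G₂
  have hyb : G₂.yb = G₁.yb⁻¹ := by rw [hyb₂, hyb₁]
  have hor := s.toValuationSubring.mem_or_inv_mem G₁.yb
  rcases hor with hs | hs
  · -- chart 1
    exact mltj3_div_chartB (tbFixO 𝔓 ⊤) (tbFixRes 𝔓 ⊤) (tbFixRes_surjective 𝔓 ⊤)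
      (t2i_natCast_ne_zero 𝔓 hK) (t2iALFix 𝔓 ⊤ K hK) (t2iFrobFix 𝔓 K) (t4iALFix 𝔓 ⊤ K hK)
      (t4cy_irreducible_p 𝔓) (tbFixO 𝔓 (t4cyH 𝔓 ζ)) (tbFixRes 𝔓 (t4cyH 𝔓 ζ)) (t4iCycFix 𝔓 hζ)
      (t4vMidFix 𝔓 K hK hζ) G₁ (t4vyPFix 𝔓 K hK hζ) (mltj3_hB1 𝔓 K hK hζ)
      (t4vyPFix_vals 𝔓 K hK hζ) (t4vyPFix_noeth 𝔓 K hK hζ)
      (fun 𝔫 h𝔫 hQ𝔫 => mltj3_hreg1 𝔓 K hK hζ h49 𝔫 h𝔫 _ hQ𝔫) hp0 hpq y hdiv s hres hs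
  · -- chart 2
    have hs' : G₂.yb ∈ s.toValuationSubring := by rw [hyb]; exact hs
    exact mltj3_div_chartB (tbFixO 𝔓 ⊤) (tbFixRes 𝔓 ⊤) (tbFixRes_surjective 𝔓 ⊤)
      (t2i_natCast_ne_zero 𝔓 hK) (t2iALFix 𝔓 ⊤ K hK) (t2iFrobFix 𝔓 K) (t4iALFix 𝔓 ⊤ K hK)
      (t4cy_irreducible_p 𝔓) (tbFixO 𝔓 (t4cyH 𝔓 ζ)) (tbFixRes 𝔓 (t4cyH 𝔓 ζ)) (t4iCycFix 𝔓 hζ)
      (t4vMidFix 𝔓 K hK hζ) G₂ (t4vyP2Fix 𝔓 K hK hζ) (mltj3_hB2 𝔓 K hK hζ)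
      (t4vyP2Fix_vals 𝔓 K hK hζ) (t4vyP2Fix_noeth 𝔓 K hK hζ)
      (fun 𝔫 h𝔫 hQ𝔫 => mltj3_hreg2 𝔓 K hK hζ h49 𝔫 h𝔫 _ hQ𝔫) hp0 hpq y hdiv s hres hs'

end Fermat.Agent.MLT
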