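/-
MLT / [L2-JL] / P3 (G-mid) (helper3), **summary**: at a rigid level `K` (`4 ∣ K ∨ 9 ∣ K`, `q ∤ K`) and
for a prime `p ≠ q` the abelian part `MltL2AbAt` follows from the Hecke contract `MltL2AbHeckeAt`
alone: `(a) = mltj3_div`, `(c) = mltj3_cmp`, assembly `mltj3_abAt`.
-/
import Fermat.Agent.Lib.MLT.L2.P3.Asm
import Fermat.Agent.Lib.MLT.L2.P3.Div
import Fermat.Agent.Lib.MLT.L2.P3.Cmp

set_option autoImplicit false
set_option linter.unusedSectionVars false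
set_option linter.unusedVariables false

namespace Fermat.Agent.MLT

open Fermat.Agent.TW

/-- **[L2-Ab] at a rigid level, modulo the Hecke contract (b)** -/
theorem mltj3_ab_of_hecke (𝔓 : FFPlace) (K : ℕ) [NeZero K] (hK : ¬ 𝔓.p ∣ K)
    {ζ : AlgebraicClosure ℚ} (hζ : IsPrimitiveRoot ζ 𝔓.p) (p : ℕ) (hp : p.Prime)
    (hpq : Nat.Coprime p 𝔓.p) (h49 : 4 ∣ K ∨ 9 ∣ K) (W : WeierstrassCurve ℤ)
    (hHecke : MltL2AbHeckeAt 𝔓 K hK hζ p hp.ne_zero hpq) :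
    MltL2AbAt 𝔓 K hK hζ p hp.ne_zero hpq W :=
  mltj3_abAt 𝔓 K hK hζ p hp.ne_zero hpq W (mltj3_div 𝔓 K hK hζ p hp.ne_zero hpq h49) hHecke
    (mltj3_cmp 𝔓 K h49 hK p hp W)

end Fermat.Agent.MLT
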