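/-
MLT / [L2-JL] / P3 (G-mid) (helper3), **the abelian part `MltL2AbAt` at a rigid level, closed**:
`mltj3_ab_of_hecke` (P3) with helper7's `mltj5_abHecke_gen : MltL2AbHeckeAt` (P5, `L2/HkFix.lean`).
-/
import Fermat.Agent.Lib.MLT.L2.P3.Main
import Fermat.Agent.Lib.MLT.L2.HkFix

set_option autoImplicit false
set_option linter.unusedSectionVars false
set_option linter.unusedVariables false

namespace Fermat.Agent.MLT

open Fermat.Agent.TW

/-- **[L2-Ab] the abelian part at a rigid level `K`** (`4 ∣ K ∨ 9 ∣ K`, `q ∤ K`, `p ≠ q` prime): a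
Kummer function of exponent `p` over the inertia field, unit at the three vertical valuations, whose
class lies in the `W`-eigenspace of `J₀(K q²)[p]` and whose three residues are not all `p`-th powers
forces residual modularity of the level `K q` -/
theorem mltj3_ab (𝔓 : FFPlace) (K : ℕ) [NeZero K] (hK : ¬ 𝔓.p ∣ K)
    {ζ : AlgebraicClosure ℚ} (hζ : IsPrimitiveRoot ζ 𝔓.p) (p : ℕ) (hp : p.Prime)
    (hpq : Nat.Coprime p 𝔓.p) (h49 : 4 ∣ K ∨ 9 ∣ K) (W : WeierstrassCurve ℤ) :
    MltL2AbAt 𝔓 K hK hζ p hp.ne_zero hpq W :=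
  mltj3_ab_of_hecke 𝔓 K hK hζ p hp hpq h49 W (mltj5_abHecke_gen 𝔓 K hK hζ p hp.ne_zero hpq)

end Fermat.Agent.MLT
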