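/-
MLT / [L2-JL] / P3 (G-mid) (helper3), part 7: **the Kummer half of the assembly of the abelian
part**: a Kummer function `Y` over `ℚ̄` (exponent `m`) whose class is an eigenvector of `T_ℓ` with the
eigenvalue `a` satisfies `T_ℓ^fun Y · Y ^ (-a) = t ^ m`; over the inertia field this descends to
`y' · y ^ (-a) = c · g ^ m`.
-/
import Mathlib
import Fermat.Agent.Lib.Delta.Wire.HeckeClass
import Fermat.Agent.Lib.Alpha.Tate.Kummer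
import Fermat.Agent.Lib.Ihara.B.Cmp.RedHecke
import Fermat.Agent.Lib.T4.Desc.Compat

set_option autoImplicit false
set_option linter.unusedSectionVars false
set_option linter.unusedVariables false
set_option linter.style.haveILetI false
set_option synthInstance.maxHeartbeats 400000

open ModularCurve AlgebraicCurve Fermat.Agent.T1 Fermat.Agent.T3 Fermat.Agent.T4 Fermat.Agent.Delta
  Fermat.Agent.Alpha Fermat.Agent.Ihara Fermat.Agent.Curve Fermat.Agent.TW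

noncomputable section

namespace Fermat.Agent.MLT

local notation "Qb" => AlgebraicClosure ℚ

/-- **eigen-classes give function identities**: if the Kummer class of `Y` is an eigenvector of `T_ℓ`
with eigenvalue `a`, then `T_ℓ^fun Y · Y ^ (-a)` is an `m`-th power -/
theorem mltj3_eigen_fun (N : ℕ) [NeZero N] {ℓ : ℕ} [NeZero ℓ] (hℓ : ℓ.Prime) (hℓN : ¬ ℓ ∣ N)
    {m : ℕ} (hm : m ≠ 0) (Y : (↥(modularFunctionFieldBar N))ˣ)
    (hY : ∀ v : Place Qb ↥(modularFunctionFieldBar N),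
      (m : ℤ) ∣ v.ord (Y : ↥(modularFunctionFieldBar N))) (a : ℤ)
    (heig : heckeOperatorBar N ⟨ℓ, hℓ⟩ (alpfClass hm Y hY) = a • alpfClass hm Y hY) :
    ∃ t : (↥(modularFunctionFieldBar N))ˣ, tkrHeckeUnits N ℓ Y * Y ^ (-a) = t ^ m := by
  have hY' := dlw_hecke_dvd N hℓ hℓN Y hY
  have hYa : ∀ v : Place Qb ↥(modularFunctionFieldBar N),
      (m : ℤ) ∣ v.ord ((Y ^ (-a) : (↥(modularFunctionFieldBar N))ˣ) :
        ↥(modularFunctionFieldBar N)) := by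
    intro v
    rw [Units.val_zpow_eq_zpow_val, v.ord_zpow]
    exact Dvd.dvd.mul_left (hY v) _
  have hmul : ∀ v : Place Qb ↥(modularFunctionFieldBar N),
      (m : ℤ) ∣ v.ord ((tkrHeckeUnits N ℓ Y * Y ^ (-a) : (↥(modularFunctionFieldBar N))ˣ) :
        ↥(modularFunctionFieldBar N)) := by
    intro v
    rw [Units.val_mul, v.ord_mul (Units.ne_zero _) (Units.ne_zero _)]
    exact dvd_add (hY' v) (hYa v)
  have h1 : alpfClass hm (tkrHeckeUnits N ℓ Y) hY' = a • alpfClass hm Y hY := by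
    rw [← dlw_class_hecke N hℓ hℓN hm Y hY hY', heig]
  have h2 : alpfClass hm (Y ^ (-a)) hYa = (-a) • alpfClass hm Y hY := by
    refine ihbc_class_eq_zsmul hm Y (Y ^ (-a)) 1 (1 : Qb) one_ne_zero (-a) hY hYa ?_
    rw [map_one, one_mul, one_pow, mul_one]
  have h3 : alpfClass hm (tkrHeckeUnits N ℓ Y * Y ^ (-a)) hmul = 0 := by
    rw [alpfClass_mul hm _ _ hY' hYa hmul, h1, h2, neg_smul, add_neg_cancel]
  exact (alpt_kummer_ker N m hm _ hmul).mp h3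

set_option maxHeartbeats 1600000 in
/-- **descent of the eigen-identity to the inertia field** -/
theorem mltj3_eigen_descend (𝔓 : FFPlace) (N : ℕ) [NeZero N] {m : ℕ} (hm : m ≠ 0)
    (y y' : (↥(tbLevF 𝔓 N ⊤))ˣ) (a : ℤ) (t : (↥(modularFunctionFieldBar N))ˣ)
    (ht : Units.map ((tbPhiF 𝔓 N ⊤ : ↥(tbLevF 𝔓 N ⊤) →+* ↥(modularFunctionFieldBar N)) :
        ↥(tbLevF 𝔓 N ⊤) →* ↥(modularFunctionFieldBar N)) y' *
      (Units.map ((tbPhiF 𝔓 N ⊤ : ↥(tbLevF 𝔓 N ⊤) →+* ↥(modularFunctionFieldBar N)) :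
        ↥(tbLevF 𝔓 N ⊤) →* ↥(modularFunctionFieldBar N)) y) ^ (-a) = t ^ m) :
    ∃ (c : (↥(tbFix 𝔓 (⊤ : Subgroup 𝔓.I)))ˣ) (g : (↥(tbLevF 𝔓 N ⊤))ˣ),
      y' * y ^ (-a) =
        Units.map (algebraMap ↥(tbFix 𝔓 (⊤ : Subgroup 𝔓.I)) ↥(tbLevF 𝔓 N ⊤) :
          ↥(tbFix 𝔓 (⊤ : Subgroup 𝔓.I)) →* ↥(tbLevF 𝔓 N ⊤)) c * g ^ m := by
  have hf0 : ((y' * y ^ (-a) : (↥(tbLevF 𝔓 N ⊤))ˣ) : ↥(tbLevF 𝔓 N ⊤)) ≠ 0 := Units.ne_zero _
  have e1 : Units.map ((tbPhiF 𝔓 N ⊤ : ↥(tbLevF 𝔓 N ⊤) →+* ↥(modularFunctionFieldBar N)) :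
        ↥(tbLevF 𝔓 N ⊤) →* ↥(modularFunctionFieldBar N)) (y' * y ^ (-a)) = t ^ m := by
    rw [map_mul, map_zpow]
    exact ht
  have e2 : tbPhiF 𝔓 N ⊤ ((y' * y ^ (-a) : (↥(tbLevF 𝔓 N ⊤))ˣ) : ↥(tbLevF 𝔓 N ⊤)) =
      ((t ^ m : (↥(modularFunctionFieldBar N))ˣ) : ↥(modularFunctionFieldBar N)) :=
    congrArg (fun u : (↥(modularFunctionFieldBar N))ˣ => (u : ↥(modularFunctionFieldBar N))) e1
  have gen : ∀ x : ↥(modularFunctionFieldBar N),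
      algebraMap Qb ↥(modularFunctionFieldBar N) 1 * x = x := fun x => by rw [map_one, one_mul]
  have hf : ∃ (c : Qb) (t : ↥(modularFunctionFieldBar N)),
      tbPhiF 𝔓 N ⊤ ((y' * y ^ (-a) : (↥(tbLevF 𝔓 N ⊤))ˣ) : ↥(tbLevF 𝔓 N ⊤)) =
        algebraMap Qb ↥(modularFunctionFieldBar N) c * t ^ m :=
    ⟨1, (t : ↥(modularFunctionFieldBar N)),
      e2.trans ((Units.val_pow_eq_pow_val t m).trans (gen _).symm)⟩
  have H := t4d_root_descend_const 𝔓 N hm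
    ((y' * y ^ (-a) : (↥(tbLevF 𝔓 N ⊤))ˣ) : ↥(tbLevF 𝔓 N ⊤)) hf0 hf
  obtain ⟨c, g, hc0, hg0, hcg⟩ := H
  refine ⟨Units.mk0 c hc0, Units.mk0 g hg0, Units.ext ?_⟩
  have e3 : ((Units.map (algebraMap ↥(tbFix 𝔓 (⊤ : Subgroup 𝔓.I)) ↥(tbLevF 𝔓 N ⊤) :
      ↥(tbFix 𝔓 (⊤ : Subgroup 𝔓.I)) →* ↥(tbLevF 𝔓 N ⊤)) (Units.mk0 c hc0) *
        (Units.mk0 g hg0) ^ m : (↥(tbLevF 𝔓 N ⊤))ˣ) : ↥(tbLevF 𝔓 N ⊤)) =
      algebraMap ↥(tbFix 𝔓 (⊤ : Subgroup 𝔓.I)) ↥(tbLevF 𝔓 N ⊤) c * g ^ m := by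
    rw [Units.val_mul, Units.val_pow_eq_pow_val]
    rfl
  exact hcg.trans ((Algebra.smul_def c (g ^ m)).trans e3.symm)

end Fermat.Agent.MLT
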