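/-
MLT / [L2-JL] / P3 (helper3), for helper7's (d): **going-down for presentations**.

`P : T4Pres F`, `P' : T4Pres F'`, `h : T4PresOver P P'` (`B' = P'.B` integral over `B = P.B` along
`F → F'`).  `B` is integrally closed with fraction field `F`, so Mathlib's going-down applies:

* `mltj3_prime_contains_center` : (Krull) a prime `𝔮 ∋ x ≠ 0` of `B` contains the centre of some `V`
  of the presentation with `x` a non-unit of `V`;
* `mltj3_going_down` : if the contraction of a prime `𝔫'` of `B'` contains the centre of `O ∈ P.vals`,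
  then some `V' ∈ P'.vals` passes through `𝔫'`, and its centre contracts into the centre of `O`.
-/
import Mathlib
import Fermat.Agent.Lib.T4.Local.Norm

set_option autoImplicit false
set_option linter.unusedSectionVars false
set_option linter.unusedVariables false
set_option linter.style.haveILetI false

open Fermat.Agent.T4

namespace Fermat.Agent.MLT

section One

variable {F : Type*} [Field F] (P : T4Pres F)

/-- the centre on `B` of a valuation ring of the presentation -/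
def mltj3Center (V : ValuationSubring F) (hV : V ∈ P.vals) : Ideal ↥P.B where
  carrier := {b | V.valuation (b : F) < 1}
  add_mem' := fun {a b} ha hb => lt_of_le_of_lt (V.valuation.map_add _ _) (max_lt ha hb)
  zero_mem' := by
    show V.valuation ((0 : P.B) : F) < 1
    rw [Subring.coe_zero, map_zero]; exact zero_lt_one
  smul_mem' := fun c b hb => by
    show V.valuation ((c * b : P.B) : F) < 1
    rw [Subring.coe_mul, map_mul]
    have hc : V.valuation (c : F) ≤ 1 := (V.valuation_le_one_iff _).mpr (P.B_le hV c.2)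
    calc V.valuation (c : F) * V.valuation (b : F) ≤ 1 * V.valuation (b : F) :=
          mul_le_mul_left hc _
      _ = V.valuation (b : F) := one_mul _
      _ < 1 := hb

theorem mem_mltj3Center {V : ValuationSubring F} {hV : V ∈ P.vals} {b : ↥P.B} :
    b ∈ mltj3Center P V hV ↔ V.valuation (b : F) < 1 := Iff.rfl

instance mltj3Center_isPrime (V : ValuationSubring F) (hV : V ∈ P.vals) :
    (mltj3Center P V hV).IsPrime := by
  refine ⟨?_, ?_⟩
  · intro htop
    have h1 : (1 : ↥P.B) ∈ mltj3Center P V hV := by rw [htop]; exact Submodule.mem_top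
    have h2 : V.valuation ((1 : ↥P.B) : F) < 1 := h1
    rw [Subring.coe_one, map_one] at h2
    exact lt_irrefl _ h2
  · intro a b hab
    have h1 : V.valuation ((a * b : ↥P.B) : F) < 1 := hab
    rw [Subring.coe_mul, map_mul] at h1
    by_contra hcon
    push Not at hcon
    have ha : V.valuation (a : F) = 1 :=
      le_antisymm ((V.valuation_le_one_iff _).mpr (P.B_le hV a.2)) (not_lt.mp hcon.1)
    have hb : V.valuation (b : F) = 1 :=
      le_antisymm ((V.valuation_le_one_iff _).mpr (P.B_le hV b.2)) (not_lt.mp hcon.2)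
    rw [ha, hb, one_mul] at h1
    exact lt_irrefl _ h1

/-- `B` is integrally closed in `F` -/
theorem mltj3_B_integrallyClosed {x : F} (hx : IsIntegral ↥P.B x) : x ∈ P.B := by
  rw [P.mem_iff]
  intro V hV
  haveI := P.dvr V hV
  obtain ⟨p, hp, hpx⟩ := hx
  let φ : ↥P.B →+* ↥V := Subring.inclusion (fun f hf => P.B_le hV hf : P.B ≤ V.toSubring)
  have hint : IsIntegral ↥V x := by
    refine ⟨p.map φ, hp.map φ, ?_⟩
    rw [Polynomial.eval₂_map]
    exact hpx
  obtain ⟨y, hy⟩ := IsIntegrallyClosed.isIntegral_iff.mp hint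
  rw [← hy]
  exact y.2

/-- `F` is the fraction field of `B` -/
theorem mltj3_isFractionRing_B (hne : P.vals.Nonempty) : IsFractionRing ↥P.B F := by
  obtain ⟨V, hV⟩ := hne
  refine t4l_isFractionRing _ fun f => ?_
  rcases V.mem_or_inv_mem f with hf | hf
  · obtain ⟨c, hc, hc1, hcf⟩ := P.essential V hV f hf
    refine ⟨⟨c * f, hcf⟩, ⟨c, hc⟩, ?_, ?_⟩
    · intro h0
      have h0' : c = 0 := h0
      rw [h0', map_zero] at hc1
      exact zero_ne_one hc1
    · exact mul_comm _ _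
  · rcases eq_or_ne f 0 with rfl | hf0
    · exact ⟨0, 1, one_ne_zero, by simp⟩
    obtain ⟨c, hc, hc1, hcf⟩ := P.essential V hV f⁻¹ hf
    have hc0 : c ≠ 0 := by
      rintro rfl
      rw [map_zero] at hc1
      exact zero_ne_one hc1
    refine ⟨⟨c, hc⟩, ⟨c * f⁻¹, hcf⟩, ?_, ?_⟩
    · exact mul_ne_zero hc0 (inv_ne_zero hf0)
    · show f * (c * f⁻¹) = c
      field_simp

/-- `B` is an integrally closed domain -/
theorem mltj3_isIntegrallyClosed_B (hne : P.vals.Nonempty) : IsIntegrallyClosed ↥P.B := by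
  haveI := mltj3_isFractionRing_B P hne
  refine (isIntegrallyClosed_iff F).mpr fun {x} hx => ?_
  exact ⟨⟨x, mltj3_B_integrallyClosed P hx⟩, rfl⟩

/-- **(Krull)** a prime ideal of `B` containing `x ≠ 0` contains the centre of some valuation ring
of the presentation at which `x` is not a unit -/
theorem mltj3_prime_contains_center (𝔮 : Ideal ↥P.B) [h𝔮 : 𝔮.IsPrime] (x : ↥P.B) (hx0 : x ≠ 0)
    (hx : x ∈ 𝔮) :
    ∃ V ∈ P.vals, V.valuation (x : F) < 1 ∧ ∀ b : ↥P.B, V.valuation (b : F) < 1 → b ∈ 𝔮 := by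
  classical
  by_contra hcon
  push Not at hcon
  have hxF0 : (x : F) ≠ 0 := fun h0 => hx0 (Subtype.ext h0)
  have hfin := P.finite_char (x : F)⁻¹ (inv_ne_zero hxF0)
  -- for every `V` a multiplier outside `𝔮`
  have H : ∀ V : ValuationSubring F, ∃ c : ↥P.B, c ∉ 𝔮 ∧
      (V ∈ P.vals → (x : F)⁻¹ ∉ V → (c : F) * (x : F)⁻¹ ∈ V) := by
    intro V
    by_cases hV : V ∈ P.vals ∧ (x : F)⁻¹ ∉ V
    · obtain ⟨hV1, hV2⟩ := hV
      haveI := P.dvr V hV1
      have hxV : V.valuation (x : F) < 1 := by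
        rw [t4l_valuation_lt_one_iff]
        exact Or.inr hV2
      obtain ⟨b, hb1, hb2⟩ := hcon V hV1 hxV
      have hb0 : (b : F) ≠ 0 := by
        intro h0
        apply hb2
        have : b = 0 := Subtype.ext h0
        rw [this]
        exact 𝔮.zero_mem
      obtain ⟨n, hn⟩ := t4l_arch V hb1 hb0 (x : F)⁻¹
      refine ⟨b ^ n, fun hmem => hb2 (h𝔮.mem_of_pow_mem n hmem), fun _ _ => ?_⟩
      rw [SubmonoidClass.coe_pow]
      exact hn
    · refine ⟨1, fun h1 => h𝔮.ne_top ((Ideal.eq_top_iff_one _).mpr h1), fun h1 h2 => ?_⟩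
      exact absurd ⟨h1, h2⟩ hV
  choose c hc1 hc2 using H
  set s : ↥P.B := ∏ V ∈ hfin.toFinset, c V with hs
  have hs𝔮 : s ∉ 𝔮 := by
    intro hmem
    obtain ⟨V, -, hV⟩ := (Ideal.IsPrime.prod_mem_iff).mp hmem
    exact hc1 V hV
  have hsx : (s : F) * (x : F)⁻¹ ∈ P.B := by
    rw [P.mem_iff]
    intro V hV
    by_cases hxV : (x : F)⁻¹ ∈ V
    · exact V.mul_mem _ _ (P.B_le hV s.2) hxV
    · have hVS : V ∈ hfin.toFinset := by
        rw [Set.Finite.mem_toFinset]
        exact ⟨hV, hxV⟩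
      have h1 : s = c V * ∏ V' ∈ hfin.toFinset.erase V, c V' := by
        rw [hs, Finset.mul_prod_erase _ _ hVS]
      rw [h1, Subring.coe_mul, mul_comm (c V : F), mul_assoc]
      exact V.mul_mem _ _ (P.B_le hV (∏ V' ∈ hfin.toFinset.erase V, c V').2) (hc2 V hV hxV)
  apply hs𝔮
  have h2 : s = ⟨(s : F) * (x : F)⁻¹, hsx⟩ * x := by
    apply Subtype.ext
    show (s : F) = (s : F) * (x : F)⁻¹ * (x : F)
    rw [mul_assoc, inv_mul_cancel₀ hxF0, mul_one]
  rw [h2]
  exact 𝔮.mul_mem_left _ hx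

end One

section Two

variable {F F' : Type*} [Field F] [Field F'] [Algebra F F'] {P : T4Pres F} {P' : T4Pres F'}

/-- **going-down for presentations**: if the contraction of the prime `𝔫'` of `B'` contains the
centre of `O ∈ P.vals` (and `π ≠ 0` is a non-unit of `O`), then some `V'` of the presentation `P'`
passes through `𝔫'`, has `π` as a non-unit, and its centre contracts into the centre of `O` -/
theorem mltj3_going_down (h : T4PresOver P P') (𝔫' : Ideal ↥P'.B) [h𝔫' : 𝔫'.IsPrime]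
    (O : ValuationSubring F) (hO : O ∈ P.vals)
    (hcen : ∀ b : ↥P.B, O.valuation (b : F) < 1 → h.incl b ∈ 𝔫')
    (π : ↥P.B) (hπ0 : π ≠ 0) (hπ : O.valuation (π : F) < 1) :
    ∃ V' ∈ P'.through 𝔫', V'.valuation (algebraMap F F' (π : F)) < 1 ∧
      ∀ b : ↥P.B, V'.valuation (algebraMap F F' (b : F)) < 1 → O.valuation (b : F) < 1 := by
  letI : Algebra ↥P.B ↥P'.B := h.incl.toAlgebra
  haveI : Algebra.IsIntegral ↥P.B ↥P'.B := ⟨h.incl_isIntegral⟩
  haveI : IsFractionRing ↥P.B F := mltj3_isFractionRing_B P ⟨O, hO⟩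
  haveI : IsIntegrallyClosed ↥P.B := mltj3_isIntegrallyClosed_B P ⟨O, hO⟩
  have hinj : Function.Injective (algebraMap ↥P.B ↥P'.B) := by
    intro a b hab
    have h1 : algebraMap F F' (a : F) = algebraMap F F' (b : F) :=
      congrArg (fun t : ↥P'.B => (t : F')) hab
    exact Subtype.ext ((algebraMap F F').injective h1)
  haveI : FaithfulSMul ↥P.B ↥P'.B := (faithfulSMul_iff_algebraMap_injective _ _).mpr hinj
  -- going down
  have hle : mltj3Center P O hO ≤ 𝔫'.under ↥P.B := fun b hb => hcen b hb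
  obtain ⟨𝔮, h𝔮le, h𝔮p, h𝔮over⟩ :=
    Ideal.exists_ideal_le_liesOver_of_le (p := mltj3Center P O hO) (q := 𝔫'.under ↥P.B) 𝔫' hle
  haveI := h𝔮p
  have hover : mltj3Center P O hO = 𝔮.under ↥P.B := h𝔮over.over
  have hπ𝔮 : h.incl π ∈ 𝔮 := by
    have h1 : π ∈ 𝔮.under ↥P.B := by rw [← hover]; exact hπ
    exact h1
  have hπ'0 : h.incl π ≠ 0 := by
    intro h0
    apply hπ0
    apply hinj
    rw [map_zero]
    exact h0
  obtain ⟨V', hV', hV'π, hV'𝔮⟩ := mltj3_prime_contains_center P' 𝔮 (h.incl π) hπ'0 hπ𝔮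
  refine ⟨V', ⟨hV', fun b hb => h𝔮le (hV'𝔮 b hb)⟩, hV'π, fun b hb => ?_⟩
  have h1 : h.incl b ∈ 𝔮 := hV'𝔮 (h.incl b) hb
  have h2 : b ∈ 𝔮.under ↥P.B := h1
  rw [← hover] at h2
  exact h2

/-- LEMMA A: if `O'` is the only vertical valuation ring of `P'` whose centre contracts into the
centre of `O`, and the contraction of `𝔫'` contains the centre of `O`, then `O'` passes through `𝔫'` -/
theorem mltj3_through_of_center (h : T4PresOver P P') (𝔫' : Ideal ↥P'.B) [h𝔫' : 𝔫'.IsPrime]
    (O : ValuationSubring F) (hO : O ∈ P.vals) (O' : ValuationSubring F')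
    (hcen : ∀ b : ↥P.B, O.valuation (b : F) < 1 → h.incl b ∈ 𝔫')
    (π : ↥P.B) (hπ0 : π ≠ 0) (hπ : O.valuation (π : F) < 1)
    (huniq : ∀ V' ∈ P'.vals, V'.valuation (algebraMap F F' (π : F)) < 1 →
      (∀ b : ↥P.B, V'.valuation (algebraMap F F' (b : F)) < 1 → O.valuation (b : F) < 1) →
      V' = O') :
    O' ∈ P'.through 𝔫' := by
  obtain ⟨V', hV', hV'π, hV'c⟩ := mltj3_going_down h 𝔫' O hO hcen π hπ0 hπ
  rw [← huniq V' hV'.1 hV'π hV'c]
  exact hV'

/-- **going-up for presentations**: a valuation ring `V'` of `P'` whose centre contracts into the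
maximal ideal `𝔫` of `B` passes through a maximal ideal `𝔫'` of `B'` over `𝔫` -/
theorem mltj3_going_up (h : T4PresOver P P') (𝔫 : Ideal ↥P.B) [h𝔫 : 𝔫.IsMaximal]
    (V' : ValuationSubring F') (hV' : V' ∈ P'.vals)
    (hthr : ∀ b : ↥P.B, V'.valuation (algebraMap F F' (b : F)) < 1 → b ∈ 𝔫) :
    ∃ 𝔫' : Ideal ↥P'.B, 𝔫'.IsMaximal ∧ 𝔫'.comap h.incl = 𝔫 ∧ V' ∈ P'.through 𝔫' := by
  letI : Algebra ↥P.B ↥P'.B := h.incl.toAlgebra
  haveI : Algebra.IsIntegral ↥P.B ↥P'.B := ⟨h.incl_isIntegral⟩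
  have hle : (mltj3Center P' V' hV').comap (algebraMap ↥P.B ↥P'.B) ≤ 𝔫 := fun b hb => hthr b hb
  obtain ⟨Q, hIQ, hQp, hQ⟩ :=
    Ideal.exists_ideal_over_prime_of_isIntegral 𝔫 (mltj3Center P' V' hV') hle
  have hQmax : Q.IsMaximal := by
    haveI := hQp
    refine Ideal.isMaximal_of_isIntegral_of_isMaximal_comap (R := ↥P.B) Q ?_
    rw [hQ]; infer_instance
  exact ⟨Q, hQmax, hQ, hV', fun b hb => hIQ hb⟩

end Two

end Fermat.Agent.MLT
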