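/-
MLT / [L2-JL] / P3 (G-mid) (helper3), part 2: **the abstract local statement behind `MltL2AbDivAt`**
(language of helper5's `T4Pres`, no modular curves).

* `mltj3_unit_frac`  : a unit of `B_𝔫` is `b / c` with `b, c ∈ B ∖ 𝔫`;
* `mltj3_local`      : `P` a presentation, `𝔫` a regular point, `z` an `m`-th power times a unit in
  every valuation ring through `𝔫`, `V` a valuation ring through `𝔫` at which `z` is a unit,
  `ρ : 𝒪 → E` a "residue map" of `V` on a subring `𝒪 ⊇ B` (kernel = the non-units of `V`, and every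
  unit of `V` can be moved into `𝒪` by an element `≡ 1`), `w : E → ℤ` an "order function" which
  vanishes on `ρ (B ∖ 𝔫)`.  Then `m ∣ w (ρ z)`.
  (Proof: `z = u · s⁻ᵐ`, `u ∈ B_𝔫ˣ` (`exists_gen`: regular points are factorial), `u = b / c`.)
* `mltj3_point`      : the point `𝔫` of a chart cut out on the branch `V` by a place `s` of the residue
  field: `ρ : B → E` with kernel the centre of `V`, values in the valuation ring of `s`, constants
  `k → B` compatible with `ρ`, residue field of `s` equal to `k`.  Then `𝔫 := ρ⁻¹(𝔪_s)` is maximal,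
  `V` passes through `𝔫`, and `ρ` maps `B ∖ 𝔫` to units at `s`.
-/
import Mathlib
import Fermat.Agent.Lib.T4.Local.Gen
import Fermat.Agent.Lib.T4.Local.GlueLocal
import Fermat.Agent.Lib.Curve.ResidueField

set_option autoImplicit false
set_option linter.unusedSectionVars false
set_option linter.unusedVariables false
set_option linter.style.haveILetI false

namespace Fermat.Agent.MLT

open Fermat.Agent.T4 AlgebraicCurve Fermat.Agent.Curve Fermat.Agent.Curve.PlaceAux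

variable {F : Type*} [Field F]

/-- a unit of `B_𝔫` is a quotient of two elements of `B ∖ 𝔫` -/
theorem mltj3_unit_frac (P : T4Pres F) {𝔫 : Ideal P.B} [h𝔫 : 𝔫.IsPrime] {u : F} (hu0 : u ≠ 0)
    (hu : ∀ V ∈ P.through 𝔫, V.valuation u = 1) :
    ∃ b c : P.B, b ∉ 𝔫 ∧ c ∉ 𝔫 ∧ (c : F) * u = (b : F) := by
  have hmem : u ∈ P.loc 𝔫 := fun V hV => (V.valuation_le_one_iff _).mp (hu V hV).le
  have hmem' : u⁻¹ ∈ P.loc 𝔫 := fun V hV => by
    rw [← V.valuation_le_one_iff, map_inv₀, hu V hV, inv_one]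
  obtain ⟨c, hc, hcu⟩ := P.mem_loc_iff.mp hmem
  obtain ⟨c', hc', hcu'⟩ := P.mem_loc_iff.mp hmem'
  refine ⟨⟨_, hcu⟩, c, ?_, hc, rfl⟩
  intro hb
  have h1 : (⟨(c : F) * u, hcu⟩ : P.B) * ⟨(c' : F) * u⁻¹, hcu'⟩ = c * c' := by
    apply Subtype.ext
    show (c : F) * u * ((c' : F) * u⁻¹) = (c : F) * (c' : F)
    field_simp
  have h2 : c * c' ∈ 𝔫 := by
    rw [← h1]
    exact 𝔫.mul_mem_right _ hb
  rcases h𝔫.mem_or_mem h2 with h3 | h3
  · exact hc h3
  · exact hc' h3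

/-- powers for an "order function" -/
theorem mltj3_w_pow {E : Type*} [Field E] (w : E → ℤ)
    (hw : ∀ a b : E, a ≠ 0 → b ≠ 0 → w (a * b) = w a + w b) (hw1 : w 1 = 0) {a : E} (ha : a ≠ 0)
    (n : ℕ) : w (a ^ n) = (n : ℤ) * w a := by
  induction n with
  | zero => rw [pow_zero, hw1, Nat.cast_zero, zero_mul]
  | succ n ih =>
    rw [pow_succ, hw _ _ (pow_ne_zero n ha) ha, ih]
    push_cast
    ring

/-- **the abstract local statement**: at a regular point, the residue on a vertical branch of a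
Kummer function which is a unit on that branch has order divisible by `m` at the point -/
theorem mltj3_local {E : Type*} [Field E] (P : T4Pres F) [IsNoetherianRing P.B]
    (𝔫 : Ideal P.B) [h𝔫 : 𝔫.IsPrime] (hreg : P.RegAt 𝔫) {m : ℕ} (hm : m ≠ 0) {z : F}
    (hz : z ≠ 0) (hroot : ∀ V ∈ P.through 𝔫, ∃ t : F, V.valuation (t ^ m * z) = 1)
    {V : ValuationSubring F} (hV : V ∈ P.through 𝔫) (hzV : V.valuation z = 1)
    (Ov : Subring F) (hBO : P.B ≤ Ov) (ρ : ↥Ov →+* E)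
    (hρ : ∀ f : ↥Ov, ρ f = 0 ↔ V.valuation (f : F) < 1)
    (happ : ∀ s : F, V.valuation s = 1 →
      ∃ h' : F, h' ∈ Ov ∧ s * h' ∈ Ov ∧ V.valuation (h' - 1) < 1)
    (w : E → ℤ) (hw : ∀ a b : E, a ≠ 0 → b ≠ 0 → w (a * b) = w a + w b)
    (hwB : ∀ b : P.B, b ∉ 𝔫 → w (ρ ⟨(b : F), hBO b.2⟩) = 0)
    (hzO : z ∈ Ov) : (m : ℤ) ∣ w (ρ ⟨z, hzO⟩) := by
  have hw1 : w 1 = 0 := by
    have := hw 1 1 one_ne_zero one_ne_zero
    rw [mul_one] at this
    omega
  obtain ⟨s, hs0, hs⟩ := P.exists_gen 𝔫 hreg hm hz hroot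
  have hsV : V.valuation s = 1 := by
    have h1 := hs V hV
    rw [map_mul, map_pow, hzV, mul_one] at h1
    exact t4l_eq_one_of_pow_eq_one hm h1
  obtain ⟨b, c, hb, hc, hbc⟩ := mltj3_unit_frac P (mul_ne_zero (pow_ne_zero m hs0) hz) hs
  obtain ⟨h', hh'O, hsh', hh'1⟩ := happ s hsV
  -- the identity in `𝒪`
  have hid : (⟨(c : F), hBO c.2⟩ : ↥Ov) * ⟨s * h', hsh'⟩ ^ m * ⟨z, hzO⟩ =
      ⟨(b : F), hBO b.2⟩ * ⟨h', hh'O⟩ ^ m := by
    apply Subtype.ext
    show (c : F) * (s * h') ^ m * z = (b : F) * h' ^ m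
    rw [← hbc]
    ring
  have hρh' : ρ ⟨h', hh'O⟩ = 1 := by
    have h1 : ρ (⟨h', hh'O⟩ - 1) = 0 := (hρ _).mpr hh'1
    rw [map_sub, map_one, sub_eq_zero] at h1
    exact h1
  have hne : ∀ (f : F) (hf : f ∈ Ov), V.valuation f = 1 → ρ ⟨f, hf⟩ ≠ 0 := by
    intro f hf h1 h0
    have := (hρ ⟨f, hf⟩).mp h0
    rw [h1] at this
    exact lt_irrefl _ this
  have hh'V : V.valuation h' = 1 := by
    have h1 : h' = (h' - 1) + 1 := by ring
    rw [h1]
    exact Valuation.map_add_eq_of_lt_right _ (by rw [map_one]; exact hh'1) |>.trans (map_one _)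
  have hc0 := hne _ (hBO c.2) (P.valuation_eq_one_of_not_mem hV hc)
  have hb0 := hne _ (hBO b.2) (P.valuation_eq_one_of_not_mem hV hb)
  have hs1 := hne _ hsh' (by rw [map_mul, hsV, hh'V, one_mul])
  have hz0 := hne _ hzO hzV
  have h2 := congrArg (fun x => w (ρ x)) hid
  simp only [map_mul, map_pow, hρh', one_pow, mul_one] at h2
  rw [hw _ _ (mul_ne_zero hc0 (pow_ne_zero m hs1)) hz0, hw _ _ hc0 (pow_ne_zero m hs1),
    mltj3_w_pow w hw hw1 hs1, hwB c hc, hwB b hb] at h2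
  refine ⟨-w (ρ ⟨s * h', hsh'⟩), ?_⟩
  linarith

/-- **the point of a chart cut out on a branch by a place of the residue field** -/
theorem mltj3_point {k E : Type*} [Field k] [Field E] [Algebra k E] (P : T4Pres F)
    {V : ValuationSubring F} (hV : V ∈ P.vals) (ρ : ↥P.B →+* E) (s : Place k E)
    (hρs : ∀ b : P.B, ρ b ∈ s.toValuationSubring)
    (hker : ∀ b : P.B, ρ b = 0 ↔ V.valuation (b : F) < 1)
    (cst : k → P.B) (hcst : ∀ c : k, ρ (cst c) = algebraMap k E c)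
    (hres : ∀ x : E, x ∈ s.toValuationSubring → ∃ c : k, OrdGE s (x - algebraMap k E c) 1) :
    ∃ 𝔫 : Ideal P.B, 𝔫.IsMaximal ∧ V ∈ P.through 𝔫 ∧
      ∀ b : P.B, b ∉ 𝔫 → ρ b ≠ 0 ∧ s.ord (ρ b) = 0 := by
  classical
  -- the ideal
  let 𝔫 : Ideal P.B :=
    { carrier := {b | OrdGE s (ρ b) 1}
      add_mem' := fun {a b} ha hb => by
        show OrdGE s (ρ (a + b)) 1
        rw [map_add]
        exact ha.add s hb
      zero_mem' := by
        show OrdGE s (ρ 0) 1
        rw [map_zero]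
        exact ordGE_zero s 1
      smul_mem' := fun c {b} hb => by
        show OrdGE s (ρ (c * b)) 1
        rw [map_mul]
        have h1 := ((ordGE_zero_iff_mem s).mpr (hρs c)).mul s hb
        rwa [zero_add] at h1 }
  have hmem : ∀ b : P.B, b ∈ 𝔫 ↔ OrdGE s (ρ b) 1 := fun b => Iff.rfl
  have hnot : ∀ b : P.B, b ∉ 𝔫 → ρ b ≠ 0 ∧ s.ord (ρ b) = 0 := by
    intro b hb
    have h0 : ρ b ≠ 0 := by
      intro h0
      apply hb
      rw [hmem, h0]
      exact ordGE_zero s 1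
    refine ⟨h0, ?_⟩
    have h1 := ord_nonneg_of_mem s (hρs b)
    have h2 : ¬ 1 ≤ s.ord (ρ b) := fun h2 => hb ((hmem b).mpr ((ordGE_iff s).mpr (Or.inr h2)))
    omega
  have hone : (1 : P.B) ∉ 𝔫 := by
    intro h1
    rw [hmem, map_one] at h1
    rcases (ordGE_iff s).mp h1 with h0 | h0
    · exact one_ne_zero h0
    · rw [s.ord_one] at h0
      omega
  refine ⟨𝔫, ?_, ⟨hV, fun b hb => ?_⟩, hnot⟩
  · -- maximality: the residue field is `k`
    refine Ideal.isMaximal_iff.mpr ⟨hone, fun J b hle hbn hbJ => ?_⟩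
    obtain ⟨c, hc⟩ := hres (ρ b) (hρs b)
    have h1 : b - cst c ∈ 𝔫 := by
      rw [hmem, map_sub, hcst]
      exact hc
    have hc0 : c ≠ 0 := by
      rintro rfl
      apply hbn
      rw [hmem]
      rw [map_zero, sub_zero] at hc
      exact hc
    -- `cst c` is a unit modulo `𝔫`: `cst c * cst c⁻¹ - 1 ∈ 𝔫`
    have h2 : cst c * cst c⁻¹ - 1 ∈ 𝔫 := by
      rw [hmem, map_sub, map_mul, hcst, hcst, map_one, ← map_mul, mul_inv_cancel₀ hc0, map_one,
        sub_self]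
      exact ordGE_zero s 1
    have h3 : cst c ∈ J := by
      have : cst c = b - (b - cst c) := by ring
      rw [this]
      exact J.sub_mem hbJ (hle h1)
    have h4 : (1 : P.B) = cst c * cst c⁻¹ - (cst c * cst c⁻¹ - 1) := by ring
    rw [h4]
    exact J.sub_mem (J.mul_mem_right _ h3) (hle h2)
  · rw [hmem, (hker b).mpr hb]
    exact ordGE_zero s 1

/-- **moving a unit of `V` into `𝒪`**: from CRT for the residue (`hcrt`) and weak approximation for
the valuations (`happrox`) -/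
theorem mltj3_happ_of {E : Type*} [Field E] (V : ValuationSubring F) (Ov : Subring F)
    (ρ : ↥Ov →+* E) (hρ : ∀ f : ↥Ov, ρ f = 0 ↔ V.valuation (f : F) < 1)
    (hcrt : ∀ a : E, a ≠ 0 → ∃ g : ↥Ov, ρ g = a)
    (happrox : ∀ s : F, V.valuation s = 1 → ∃ g : F, g ∈ Ov ∧ s * g ∈ Ov ∧ V.valuation g = 1)
    (s : F) (hs : V.valuation s = 1) :
    ∃ h' : F, h' ∈ Ov ∧ s * h' ∈ Ov ∧ V.valuation (h' - 1) < 1 := by
  obtain ⟨g, hgO, hsg, hgV⟩ := happrox s hs
  have ha : ρ ⟨g, hgO⟩ ≠ 0 := by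
    intro h0
    have := (hρ ⟨g, hgO⟩).mp h0
    rw [hgV] at this
    exact lt_irrefl _ this
  obtain ⟨g₁, hg₁⟩ := hcrt (ρ ⟨g, hgO⟩)⁻¹ (inv_ne_zero ha)
  refine ⟨g * (g₁ : F), Ov.mul_mem hgO g₁.2, ?_, ?_⟩
  · rw [← mul_assoc]
    exact Ov.mul_mem hsg g₁.2
  · have h1 : ρ (⟨g, hgO⟩ * g₁ - 1) = 0 := by
      rw [map_sub, map_mul, map_one, hg₁, mul_inv_cancel₀ ha, sub_self]
    exact (hρ _).mp h1

/-- an element integral over a subalgebra contained in a valuation ring lies in the valuation ring -/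
theorem mltj3_mem_of_isIntegral {k E : Type*} [Field k] [Field E] [Algebra k E]
    (A : ValuationSubring E) (S : Subalgebra k E) (hS : ∀ x ∈ S, x ∈ A) {x : E}
    (hx : IsIntegral ↥S x) : x ∈ A := by
  have h1 : IsIntegral ↥A x := by
    obtain ⟨p, hp, hpx⟩ := hx
    let φ : ↥S →+* ↥A := (S.val.toRingHom).codRestrict A.toSubring (fun y => hS y y.2)
    refine ⟨p.map φ, hp.map φ, ?_⟩
    rw [Polynomial.eval₂_map]
    have : (algebraMap ↥A E).comp φ = algebraMap ↥S E := rfl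
    rw [this]
    exact hpx
  obtain ⟨y, hy⟩ := IsIntegrallyClosed.isIntegral_iff.mp h1
  rw [← hy]
  exact y.2

end Fermat.Agent.MLT
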