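/-
MLT / [L2-JL] / P3 (helper3), for helper7's (d): **norms of units of the semi-local ring above a
point** (no uniqueness of the point above, unlike `T4PresOver.norm_valuation_eq_one`).

`h : T4PresOver P P'`, `𝔫` a maximal ideal of `B`.  If `u ∈ F'` is a unit at every valuation ring of
`P'` through every maximal ideal `𝔫'` of `B'` over `𝔫`, then `u` is integral over `B_𝔫`
(`mltj3_isIntegral_semi`) and `N_{F'/F}(u)` is a unit at every valuation ring of `P` through `𝔫`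
(`mltj3_norm_unit`).
-/
import Mathlib
import Fermat.Agent.Lib.T4.Local.Norm

set_option autoImplicit false
set_option linter.unusedSectionVars false
set_option linter.unusedVariables false
set_option linter.style.haveILetI false

open Fermat.Agent.T4

namespace Fermat.Agent.MLT

variable {F F' : Type*} [Field F] [Field F'] [Algebra F F'] {P : T4Pres F} {P' : T4Pres F'}

/-- denominators from `B ∖ 𝔫` for an element which lies in the local rings of `B'` at all points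
over `𝔫` -/
theorem mltj3_exists_den_semi (h : T4PresOver P P') (𝔫 : Ideal ↥P.B) [h𝔫 : 𝔫.IsMaximal] {f : F'}
    (hf : ∀ 𝔫' : Ideal ↥P'.B, 𝔫'.IsMaximal → 𝔫'.comap h.incl = 𝔫 → f ∈ P'.loc 𝔫') :
    ∃ c : ↥P.B, c ∉ 𝔫 ∧ algebraMap F F' (c : F) * f ∈ P'.B := by
  by_contra hcon
  push Not at hcon
  letI : Algebra ↥P.B ↥P'.B := h.incl.toAlgebra
  haveI : Algebra.IsIntegral ↥P.B ↥P'.B := ⟨h.incl_isIntegral⟩
  -- the ideal of denominators of `f`
  let I : Ideal ↥P'.B :=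
    { carrier := {b | (b : F') * f ∈ P'.B}
      add_mem' := fun {a b} ha hb => by
        show ((a + b : ↥P'.B) : F') * f ∈ P'.B
        rw [Subring.coe_add, add_mul]
        exact P'.B.add_mem ha hb
      zero_mem' := by
        show ((0 : ↥P'.B) : F') * f ∈ P'.B
        rw [Subring.coe_zero, zero_mul]
        exact P'.B.zero_mem
      smul_mem' := fun c b hb => by
        show ((c * b : ↥P'.B) : F') * f ∈ P'.B
        rw [Subring.coe_mul, mul_assoc]
        exact P'.B.mul_mem c.2 hb }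
  have hle : I.comap (algebraMap ↥P.B ↥P'.B) ≤ 𝔫 := by
    intro c hc
    by_contra hc𝔫
    exact hcon c hc𝔫 hc
  obtain ⟨Q, hIQ, hQp, hQ⟩ := Ideal.exists_ideal_over_prime_of_isIntegral 𝔫 I hle
  haveI := hQp
  have hQmax : Q.IsMaximal := by
    refine Ideal.isMaximal_of_isIntegral_of_isMaximal_comap (R := ↥P.B) Q ?_
    rw [hQ]; infer_instance
  obtain ⟨c, hcQ, hcf⟩ := P'.mem_loc_iff.mp (hf Q hQmax hQ)
  exact hcQ (hIQ hcf)

/-- an element of the semi-local ring of `B'` above `𝔫` is integral over `B_𝔫` -/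
theorem mltj3_isIntegral_semi (h : T4PresOver P P') (𝔫 : Ideal ↥P.B) [h𝔫 : 𝔫.IsMaximal] {f : F'}
    (hf : ∀ 𝔫' : Ideal ↥P'.B, 𝔫'.IsMaximal → 𝔫'.comap h.incl = 𝔫 → f ∈ P'.loc 𝔫') :
    IsIntegral ↥(P.loc 𝔫) f := by
  haveI := h𝔫.isPrime
  obtain ⟨c, hc, hcf⟩ := mltj3_exists_den_semi h 𝔫 hf
  have hc0 : (c : F) ≠ 0 := by
    intro h0
    apply hc
    have : c = 0 := Subtype.ext h0
    rw [this]; exact 𝔫.zero_mem
  have hinv : (c : F)⁻¹ ∈ P.loc 𝔫 :=
    P.mem_loc_iff.mpr ⟨c, hc, by rw [mul_inv_cancel₀ hc0]; exact P.B.one_mem⟩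
  have hcF : algebraMap F F' (c : F) ≠ 0 := by
    rw [Ne, map_eq_zero]; exact hc0
  have hfeq : f = algebraMap ↥(P.loc 𝔫) F' ⟨_, hinv⟩ * (algebraMap F F' (c : F) * f) := by
    show f = algebraMap F F' ((c : F)⁻¹) * (algebraMap F F' (c : F) * f)
    rw [map_inv₀, ← mul_assoc, inv_mul_cancel₀ hcF, one_mul]
  rw [hfeq]
  refine IsIntegral.mul isIntegral_algebraMap ?_
  obtain ⟨p, hp, hpb⟩ := h.integral _ hcf
  refine ⟨p.map (P.locIncl 𝔫), hp.map _, ?_⟩
  rw [Polynomial.eval₂_map]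
  exact hpb

/-- **norms of semi-local units**: if `u` is a unit at all valuation rings through all the points of
`B'` over `𝔫`, then its norm is a unit at all valuation rings through `𝔫` -/
theorem mltj3_norm_unit (h : T4PresOver P P') (𝔫 : Ideal ↥P.B) [h𝔫 : 𝔫.IsMaximal] {u : F'}
    (hu0 : u ≠ 0)
    (hu : ∀ 𝔫' : Ideal ↥P'.B, 𝔫'.IsMaximal → 𝔫'.comap h.incl = 𝔫 →
      ∀ V' ∈ P'.through 𝔫', V'.valuation u = 1)
    {V : ValuationSubring F} (hV : V ∈ P.through 𝔫) :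
    V.valuation (Algebra.norm F u) = 1 := by
  have huloc : ∀ 𝔫' : Ideal ↥P'.B, 𝔫'.IsMaximal → 𝔫'.comap h.incl = 𝔫 → u ∈ P'.loc 𝔫' :=
    fun 𝔫' h1 h2 V' hV' => (V'.valuation_le_one_iff _).mp (hu 𝔫' h1 h2 V' hV').le
  have huinv : ∀ 𝔫' : Ideal ↥P'.B, 𝔫'.IsMaximal → 𝔫'.comap h.incl = 𝔫 → u⁻¹ ∈ P'.loc 𝔫' :=
    fun 𝔫' h1 h2 V' hV' => by
      rw [← V'.valuation_le_one_iff, map_inv₀, hu 𝔫' h1 h2 V' hV', inv_one]
  have hA := fun x hx => P.loc_integrallyClosed 𝔫 (x := x) hx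
  have h1 : Algebra.norm F u ∈ P.loc 𝔫 := t4l_norm_mem _ hA (mltj3_isIntegral_semi h 𝔫 huloc)
  have h2 : (Algebra.norm F u)⁻¹ ∈ P.loc 𝔫 :=
    t4l_norm_inv_mem _ hA hu0 (mltj3_isIntegral_semi h 𝔫 huinv)
  have h3 : V.valuation (Algebra.norm F u) ≤ 1 := (V.valuation_le_one_iff _).mpr (h1 V hV)
  have h4 : V.valuation (Algebra.norm F u)⁻¹ ≤ 1 := (V.valuation_le_one_iff _).mpr (h2 V hV)
  rw [map_inv₀] at h4
  rcases lt_or_eq_of_le h3 with h5 | h5
  · exfalso
    have hne : V.valuation (Algebra.norm F u) ≠ 0 := by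
      intro h0
      have h6 : Algebra.norm F u = 0 := (V.valuation.zero_iff).mp h0
      have h7 : Algebra.norm F u * Algebra.norm F u⁻¹ = 1 := by
        rw [← map_mul, mul_inv_cancel₀ hu0, map_one]
      rw [h6, zero_mul] at h7
      exact zero_ne_one h7
    have h6 := (inv_le_one₀ (zero_lt_iff.mpr hne)).mp h4
    exact not_lt.mpr h6 h5
  · exact h5

end Fermat.Agent.MLT
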