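/-
MLT / [L2-JL] / P3 (helper3), for helper7's (d) and (d'): **the abstract assembly at the triple
points**, on top of `GoingDown.lean` and `NormSemi.lean`.

Setting: fields `F₀ → F` (an `Algebra F₀ F`), presentations `P₀ : T4Pres F₀`, `P : T4Pres F` with
`h : T4PresOver P₀ P`, an index type `ι` (`= Fin 3` for the three vertical valuations) and families
`O₀ : ι → ValuationSubring F₀`, `O : ι → ValuationSubring F` (the vertical valuation rings of the two
levels).  A maximal ideal `𝔫` of `B` is a *triple point* (`Mltj3Triple P O 𝔫`) if all the `O i` pass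
through it.

Hypotheses used (`A := algebraMap F₀ F`):
* (H1) `hO₀ : ∀ i, O₀ i ∈ P₀.vals`;
* (H2) `hcompat : ∀ i, ∀ b : ↥P₀.B, (O₀ i).valuation b < 1 → (O i).valuation (A b) < 1`;
* (H3) `π : ι → ↥P₀.B`, `hπ0 : ∀ i, π i ≠ 0`, `hπ : ∀ i, (O₀ i).valuation (π i) < 1`;
* (H4) `huniq : ∀ i, ∀ V ∈ P.vals, V.valuation (A (π i)) < 1 →
    (∀ b : ↥P₀.B, V.valuation (A b) < 1 → (O₀ i).valuation b < 1) → V = O i`
  (`O i` is the only valuation ring of `P` over `O₀ i`).

Results: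
* `mltj3_triple_over`  (T1): a maximal ideal of `B` over a triple point of `B₀` is a triple point;
* `mltj3_triple_under` (T2): the contraction of a triple point is a triple point;
* `mltj3_ext_through`  (T3) = abstract (d'): a valuation ring `V''` of `P` with the same restriction to
  `F₀` as some `V'` through a triple point is again through a triple point;
* `mltj3_norm_triple`  (T4) = abstract norm step of (d): the norm of a unit at the triple points of `P`
  is a unit at the triple points of `P₀`;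
* `mltj3_map_unit_triple` (T5) = abstract `B_ℓ`-step of (d): the image of a unit at the triple points
  of `P₀` is a unit at the triple points of `P`.
* `mltj3_hecke_triple` (T4)+(T5) combined, for two different embeddings `A`, `B_ℓ` of `F₀` in `F`.
-/
import Mathlib
import Fermat.Agent.Lib.MLT.L2.P3.GoingDown
import Fermat.Agent.Lib.MLT.L2.P3.NormSemi

set_option autoImplicit false
set_option linter.unusedSectionVars false
set_option linter.unusedVariables false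
set_option linter.style.haveILetI false

open Fermat.Agent.T4

namespace Fermat.Agent.MLT

/-- a **triple point** of the presentation `P` with respect to the family `O` of (vertical) valuation
rings: a maximal ideal of `B` through which all the `O i` pass -/
def Mltj3Triple {F : Type*} [Field F] {ι : Type*} (P : T4Pres F) (O : ι → ValuationSubring F)
    (𝔫 : Ideal ↥P.B) : Prop :=
  𝔫.IsMaximal ∧ ∀ i, O i ∈ P.through 𝔫

/-- `y` is a unit at all the valuation rings through all the triple points -/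
def Mltj3UnitAtTriple {F : Type*} [Field F] {ι : Type*} (P : T4Pres F)
    (O : ι → ValuationSubring F) (y : F) : Prop :=
  ∀ 𝔫 : Ideal ↥P.B, Mltj3Triple P O 𝔫 → ∀ V ∈ P.through 𝔫, V.valuation y = 1

/-- two different valuation rings of a presentation have incomparable centres on `B` -/
theorem mltj3_exists_sep {F : Type*} [Field F] (P : T4Pres F) {O₁ O₂ : ValuationSubring F}
    (h₁ : O₁ ∈ P.vals) (h₂ : O₂ ∈ P.vals) (hne : O₁ ≠ O₂) :
    ∃ b : ↥P.B, O₁.valuation (b : F) < 1 ∧ O₂.valuation (b : F) = 1 := by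
  by_contra hcon
  push Not at hcon
  haveI := P.dvr O₁ h₁
  haveI := P.dvr O₂ h₂
  apply hne
  -- `O₁ ≠ ⊤`
  have htop : O₁ ≠ ⊤ := by
    intro htop
    obtain ⟨ϖ, hϖ⟩ := IsDiscreteValuationRing.exists_irreducible ↥O₁
    have hϖ0 : (ϖ : F) ≠ 0 := fun h0 => hϖ.ne_zero (Subtype.ext h0)
    have hall : ∀ g : F, g ∈ O₁ := fun g => htop ▸ ValuationSubring.mem_top g
    have hmem : (ϖ : F)⁻¹ ∈ O₁ := hall _
    apply hϖ.not_isUnit
    refine IsUnit.of_mul_eq_one ⟨_, hmem⟩ ?_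
    apply Subtype.ext
    show (ϖ : F) * (ϖ : F)⁻¹ = 1
    exact mul_inv_cancel₀ hϖ0
  symm
  refine ValuationSubring.eq_of_le_of_ne_top _ ?_ htop
  intro f hf
  obtain ⟨c, hc, hc1, hcf⟩ := P.essential O₂ h₂ f hf
  have hc1' : O₁.valuation c = 1 := by
    have h3 : O₁.valuation c ≤ 1 := (O₁.valuation_le_one_iff _).mpr (P.B_le h₁ hc)
    rcases lt_or_eq_of_le h3 with h4 | h4
    · exact absurd hc1 (hcon ⟨c, hc⟩ h4)
    · exact h4
  have h5 : O₁.valuation (c * f) ≤ 1 := (O₁.valuation_le_one_iff _).mpr (P.B_le h₁ hcf)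
  rw [map_mul, hc1', one_mul] at h5
  exact (O₁.valuation_le_one_iff _).mp h5

section Over

variable {F₀ F : Type*} [Field F₀] [Field F] [Algebra F₀ F] {P₀ : T4Pres F₀} {P : T4Pres F}
  {ι : Type*} {O₀ : ι → ValuationSubring F₀} {O : ι → ValuationSubring F}

/-- **(H4) from the classification of the vertical valuation rings**: if the valuation rings of `P`
at which `A q` is not a unit are the `O j`, the `O₀ j` are pairwise different and `A` is compatible
with the centres, then `O i` is the only valuation ring of `P` over `O₀ i` -/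
theorem mltj3_huniq_of_vert (h : T4PresOver P₀ P) (hO₀ : ∀ i, O₀ i ∈ P₀.vals)
    (hinj : Function.Injective O₀)
    (hcompat : ∀ i, ∀ b : ↥P₀.B, (O₀ i).valuation (b : F₀) < 1 →
      (O i).valuation (algebraMap F₀ F (b : F₀)) < 1)
    (q : ↥P₀.B)
    (hvert : ∀ V ∈ P.vals, V.valuation (algebraMap F₀ F ((q : ↥P₀.B) : F₀)) < 1 → ∃ j, V = O j)
    (i : ι) :
    ∀ V ∈ P.vals, V.valuation (algebraMap F₀ F ((q : ↥P₀.B) : F₀)) < 1 →
      (∀ b : ↥P₀.B, V.valuation (algebraMap F₀ F (b : F₀)) < 1 → (O₀ i).valuation (b : F₀) < 1) →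
      V = O i := by
  intro V hV hq hc
  obtain ⟨j, rfl⟩ := hvert V hV hq
  by_cases hji : j = i
  · rw [hji]
  · exfalso
    obtain ⟨b, hb1, hb2⟩ := mltj3_exists_sep P₀ (hO₀ j) (hO₀ i) (hinj.ne hji)
    have h3 := hc b (hcompat j b hb1)
    rw [hb2] at h3
    exact lt_irrefl _ h3

/-- **(T1)** a maximal ideal of `B` whose contraction is a triple point of `B₀` is a triple point -/
theorem mltj3_triple_over (h : T4PresOver P₀ P) (hO₀ : ∀ i, O₀ i ∈ P₀.vals)
    (π : ι → ↥P₀.B) (hπ0 : ∀ i, π i ≠ 0) (hπ : ∀ i, (O₀ i).valuation ((π i : ↥P₀.B) : F₀) < 1)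
    (huniq : ∀ i, ∀ V ∈ P.vals, V.valuation (algebraMap F₀ F ((π i : ↥P₀.B) : F₀)) < 1 →
      (∀ b : ↥P₀.B, V.valuation (algebraMap F₀ F (b : F₀)) < 1 → (O₀ i).valuation (b : F₀) < 1) →
      V = O i)
    (𝔫' : Ideal ↥P.B) (h𝔫' : 𝔫'.IsMaximal) (hund : Mltj3Triple P₀ O₀ (𝔫'.comap h.incl)) :
    Mltj3Triple P O 𝔫' := by
  haveI := h𝔫'.isPrime
  refine ⟨h𝔫', fun i => ?_⟩
  exact mltj3_through_of_center h 𝔫' (O₀ i) (hO₀ i) (O i) (fun b hb => (hund.2 i).2 b hb) (π i)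
    (hπ0 i) (hπ i) (huniq i)

/-- **(T2)** the contraction of a triple point of `B` is a triple point of `B₀` -/
theorem mltj3_triple_under (h : T4PresOver P₀ P) (hO₀ : ∀ i, O₀ i ∈ P₀.vals)
    (hcompat : ∀ i, ∀ b : ↥P₀.B, (O₀ i).valuation (b : F₀) < 1 →
      (O i).valuation (algebraMap F₀ F (b : F₀)) < 1)
    (𝔫' : Ideal ↥P.B) (h𝔫' : Mltj3Triple P O 𝔫') : Mltj3Triple P₀ O₀ (𝔫'.comap h.incl) := by
  haveI := h𝔫'.1
  refine ⟨h.under_isMaximal 𝔫', fun i => ⟨hO₀ i, fun b hb => ?_⟩⟩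
  exact (h𝔫'.2 i).2 (h.incl b) (hcompat i b hb)

/-- **(T3) = abstract (d')**: a valuation ring `V''` of `P` whose centre on `B₀` is contained in the
centre of some `V'` through a triple point is again through a triple point -/
theorem mltj3_ext_through (h : T4PresOver P₀ P) (hO₀ : ∀ i, O₀ i ∈ P₀.vals)
    (hcompat : ∀ i, ∀ b : ↥P₀.B, (O₀ i).valuation (b : F₀) < 1 →
      (O i).valuation (algebraMap F₀ F (b : F₀)) < 1)
    (π : ι → ↥P₀.B) (hπ0 : ∀ i, π i ≠ 0) (hπ : ∀ i, (O₀ i).valuation ((π i : ↥P₀.B) : F₀) < 1)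
    (huniq : ∀ i, ∀ V ∈ P.vals, V.valuation (algebraMap F₀ F ((π i : ↥P₀.B) : F₀)) < 1 →
      (∀ b : ↥P₀.B, V.valuation (algebraMap F₀ F (b : F₀)) < 1 → (O₀ i).valuation (b : F₀) < 1) →
      V = O i)
    (𝔫' : Ideal ↥P.B) (h𝔫' : Mltj3Triple P O 𝔫') (V' : ValuationSubring F)
    (hV' : V' ∈ P.through 𝔫') (V'' : ValuationSubring F) (hV'' : V'' ∈ P.vals)
    (hVV : ∀ b : ↥P₀.B, V''.valuation (algebraMap F₀ F (b : F₀)) < 1 →
      V'.valuation (algebraMap F₀ F (b : F₀)) < 1) :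
    ∃ 𝔫'' : Ideal ↥P.B, Mltj3Triple P O 𝔫'' ∧ V'' ∈ P.through 𝔫'' := by
  have hund := mltj3_triple_under h hO₀ hcompat 𝔫' h𝔫'
  haveI := hund.1
  have hthr : ∀ b : ↥P₀.B, V''.valuation (algebraMap F₀ F (b : F₀)) < 1 →
      b ∈ 𝔫'.comap h.incl := fun b hb => hV'.2 (h.incl b) (hVV b hb)
  obtain ⟨𝔫'', hmax, hcomap, hthrough⟩ := mltj3_going_up h (𝔫'.comap h.incl) V'' hV'' hthr
  refine ⟨𝔫'', ?_, hthrough⟩
  refine mltj3_triple_over h hO₀ π hπ0 hπ huniq 𝔫'' hmax ?_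
  rw [hcomap]
  exact hund

/-- (T3) with the hypothesis in the form `V''.comap A = V'.comap A` -/
theorem mltj3_ext_through_comap (h : T4PresOver P₀ P) (hO₀ : ∀ i, O₀ i ∈ P₀.vals)
    (hcompat : ∀ i, ∀ b : ↥P₀.B, (O₀ i).valuation (b : F₀) < 1 →
      (O i).valuation (algebraMap F₀ F (b : F₀)) < 1)
    (π : ι → ↥P₀.B) (hπ0 : ∀ i, π i ≠ 0) (hπ : ∀ i, (O₀ i).valuation ((π i : ↥P₀.B) : F₀) < 1)
    (huniq : ∀ i, ∀ V ∈ P.vals, V.valuation (algebraMap F₀ F ((π i : ↥P₀.B) : F₀)) < 1 →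
      (∀ b : ↥P₀.B, V.valuation (algebraMap F₀ F (b : F₀)) < 1 → (O₀ i).valuation (b : F₀) < 1) →
      V = O i)
    (𝔫' : Ideal ↥P.B) (h𝔫' : Mltj3Triple P O 𝔫') (V' : ValuationSubring F)
    (hV' : V' ∈ P.through 𝔫') (V'' : ValuationSubring F) (hV'' : V'' ∈ P.vals)
    (hVV : V''.comap (algebraMap F₀ F) = V'.comap (algebraMap F₀ F)) :
    ∃ 𝔫'' : Ideal ↥P.B, Mltj3Triple P O 𝔫'' ∧ V'' ∈ P.through 𝔫'' := by
  refine mltj3_ext_through h hO₀ hcompat π hπ0 hπ huniq 𝔫' h𝔫' V' hV' V'' hV'' fun b hb => ?_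
  rw [← t4l_valuation_comap_lt_one] at hb ⊢
  rw [← hVV]
  exact hb

/-- **(T4) = abstract norm step of (d)**: the norm of a unit at the triple points of `P` is a unit at
the triple points of `P₀` -/
theorem mltj3_norm_triple (h : T4PresOver P₀ P) (hO₀ : ∀ i, O₀ i ∈ P₀.vals)
    (π : ι → ↥P₀.B) (hπ0 : ∀ i, π i ≠ 0) (hπ : ∀ i, (O₀ i).valuation ((π i : ↥P₀.B) : F₀) < 1)
    (huniq : ∀ i, ∀ V ∈ P.vals, V.valuation (algebraMap F₀ F ((π i : ↥P₀.B) : F₀)) < 1 →
      (∀ b : ↥P₀.B, V.valuation (algebraMap F₀ F (b : F₀)) < 1 → (O₀ i).valuation (b : F₀) < 1) →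
      V = O i)
    {u : F} (hu0 : u ≠ 0) (hu : Mltj3UnitAtTriple P O u) :
    Mltj3UnitAtTriple P₀ O₀ (Algebra.norm F₀ u) := by
  intro 𝔫 h𝔫 V hV
  haveI := h𝔫.1
  refine mltj3_norm_unit h 𝔫 hu0 (fun 𝔫' hmax hcomap V' hV' => ?_) hV
  refine hu 𝔫' (mltj3_triple_over h hO₀ π hπ0 hπ huniq 𝔫' hmax ?_) V' hV'
  rw [hcomap]
  exact h𝔫

/-- **(T5) = abstract `B_ℓ`-step of (d)**: the image of a unit at the triple points of `P₀` is a unit
at the triple points of `P` (the `Algebra F₀ F` here is the embedding `B_ℓ`) -/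
theorem mltj3_map_unit_triple [hι : Nonempty ι] (h : T4PresOver P₀ P)
    (hO₀ : ∀ i, O₀ i ∈ P₀.vals)
    (hcompat : ∀ i, ∀ b : ↥P₀.B, (O₀ i).valuation (b : F₀) < 1 →
      (O i).valuation (algebraMap F₀ F (b : F₀)) < 1)
    {y : F₀} (hy : Mltj3UnitAtTriple P₀ O₀ y) :
    Mltj3UnitAtTriple P O (algebraMap F₀ F y) := by
  intro 𝔫' h𝔫' V' hV'
  have hund := mltj3_triple_under h hO₀ hcompat 𝔫' h𝔫'
  haveI := hund.1
  haveI : (𝔫'.comap h.incl).IsPrime := hund.1.isPrime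
  -- `y` and `y⁻¹` lie in the local ring at the contraction
  have hyloc : y ∈ P₀.loc (𝔫'.comap h.incl) := fun V hV =>
    (V.valuation_le_one_iff _).mp (hy _ hund V hV).le
  have hyinv : y⁻¹ ∈ P₀.loc (𝔫'.comap h.incl) := fun V hV => by
    rw [← V.valuation_le_one_iff, map_inv₀, hy _ hund V hV, inv_one]
  -- an element of `B₀` outside the contraction maps to a unit of `V'`
  have hunit : ∀ c : ↥P₀.B, c ∉ 𝔫'.comap h.incl →
      V'.valuation (algebraMap F₀ F (c : F₀)) = 1 := by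
    intro c hc
    have h1 : V'.valuation ((h.incl c : ↥P.B) : F) ≤ 1 :=
      (V'.valuation_le_one_iff _).mpr (P.B_le hV'.1 (h.incl c).2)
    rcases lt_or_eq_of_le h1 with h2 | h2
    · exact absurd (hV'.2 (h.incl c) h2) hc
    · exact h2
  have hle : ∀ f : F₀, f ∈ P₀.loc (𝔫'.comap h.incl) → V'.valuation (algebraMap F₀ F f) ≤ 1 := by
    intro f hf
    obtain ⟨c, hc, hcf⟩ := P₀.mem_loc_iff.mp hf
    have h1 : V'.valuation (algebraMap F₀ F ((c : F₀) * f)) ≤ 1 :=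
      (V'.valuation_le_one_iff _).mpr (P.B_le hV'.1 (h.map_mem _ hcf))
    rw [map_mul, map_mul, hunit c hc, one_mul] at h1
    exact h1
  have h1 := hle y hyloc
  have h2 := hle y⁻¹ hyinv
  rw [map_inv₀, map_inv₀] at h2
  rcases lt_or_eq_of_le h1 with h3 | h3
  · exfalso
    have hne : V'.valuation (algebraMap F₀ F y) ≠ 0 := by
      intro h0
      have hy0 : algebraMap F₀ F y = 0 := (V'.valuation.zero_iff).mp h0
      rw [map_eq_zero] at hy0
      obtain ⟨i⟩ := hι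
      have h5 := hy _ hund (O₀ i) (hund.2 i)
      rw [hy0, map_zero] at h5
      exact zero_ne_one h5
    have h6 := (inv_le_one₀ (zero_lt_iff.mpr hne)).mp h2
    exact not_lt.mpr h6 h3
  · exact h3

end Over

section Hecke

variable {F₀ F : Type*} [Field F₀] [Field F] {P₀ : T4Pres F₀} {P : T4Pres F}
  {ι : Type*} {O₀ : ι → ValuationSubring F₀} {O : ι → ValuationSubring F}

/-- **(T4)+(T5) = the abstract form of (d)**: for two embeddings `A`, `B : F₀ → F` such that `P` lies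
over `P₀` along both, `N_A (B y)` is a unit at the triple points of `P₀` if `y` is -/
theorem mltj3_hecke_triple [hι : Nonempty ι] (A B : F₀ →+* F)
    (hA : letI := A.toAlgebra; T4PresOver P₀ P) (hB : letI := B.toAlgebra; T4PresOver P₀ P)
    (hO₀ : ∀ i, O₀ i ∈ P₀.vals)
    (hcompatB : ∀ i, ∀ b : ↥P₀.B, (O₀ i).valuation (b : F₀) < 1 →
      (O i).valuation (B (b : F₀)) < 1)
    (π : ι → ↥P₀.B) (hπ0 : ∀ i, π i ≠ 0) (hπ : ∀ i, (O₀ i).valuation ((π i : ↥P₀.B) : F₀) < 1)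
    (huniqA : ∀ i, ∀ V ∈ P.vals, V.valuation (A ((π i : ↥P₀.B) : F₀)) < 1 →
      (∀ b : ↥P₀.B, V.valuation (A (b : F₀)) < 1 → (O₀ i).valuation (b : F₀) < 1) →
      V = O i)
    {y : F₀} (hy : Mltj3UnitAtTriple P₀ O₀ y) (hy0 : y ≠ 0) :
    Mltj3UnitAtTriple P₀ O₀ (letI := A.toAlgebra; Algebra.norm F₀ (B y)) := by
  have h1 : Mltj3UnitAtTriple P O (B y) := by
    letI := B.toAlgebra
    exact mltj3_map_unit_triple hB hO₀ hcompatB hy
  have hBy0 : B y ≠ 0 := by
    rw [Ne, map_eq_zero]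
    exact hy0
  letI := A.toAlgebra
  exact mltj3_norm_triple hA hO₀ π hπ0 hπ huniqA hBy0 h1

end Hecke

end Fermat.Agent.MLT
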